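/-
Project DS (S48), cell DS-B, leaf [B5]: automorphisms of `ℂ`.

* `dsb_exists_aut_extending`     : a ring embedding `L → ℂ` of an algebraic subfield `L ⊆ ℂ` extends
                                   to an automorphism of `ℂ`;
* `dsb_aut_exists_of_embeddings` : two embeddings `ι τ : K → ℂ` of a field algebraic over `ℚ` differ
                                   by an automorphism of `ℂ`;
* `dsb_exists_aut_of_embedding`  : the special case `K = Q̄`, `ι = ds_iota`;
* `dsb_isAlgebraic_of_finite_orbit`        : a complex number with finite `Aut(ℂ)`-orbit is algebraic;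
* `dsb_finiteDimensional_of_finite_orbit`  : a family with finite `Aut(ℂ)`-orbit generates a
                                             number field.
-/
import Mathlib
import Fermat.Agent.S23.GaloisDescent
import Fermat.Agent.DS.Defs

set_option autoImplicit false

namespace Fermat.Agent.DS

open IntermediateField MvPolynomial

/-- An algebraic subfield of `ℂ` lies in the algebraic closure of `ℚ` in `ℂ`. -/
theorem dsb_aut_le_algebraicClosure (L : IntermediateField ℚ ℂ) [Algebra.IsAlgebraic ℚ L] :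
    L ≤ algebraicClosure ℚ ℂ := by
  intro x hx
  have h := Algebra.IsAlgebraic.isAlgebraic (R := ℚ) (⟨x, hx⟩ : L)
  exact mem_algebraicClosure_iff.mpr ((IntermediateField.isAlgebraic_iff).mp h)

/-- Every `ℚ`-embedding of an algebraic subfield of `ℂ` extends to an automorphism of the algebraic
closure of `ℚ` in `ℂ`. -/
theorem dsb_aut_exists_algEquiv (L : IntermediateField ℚ ℂ) [Algebra.IsAlgebraic ℚ L]
    (φ : L →ₐ[ℚ] ℂ) :
    ∃ τ : algebraicClosure ℚ ℂ ≃ₐ[ℚ] algebraicClosure ℚ ℂ,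
      ∀ (x : ℂ) (hx : x ∈ L) (hx' : x ∈ algebraicClosure ℚ ℂ),
        ((τ ⟨x, hx'⟩ : algebraicClosure ℚ ℂ) : ℂ) = φ ⟨x, hx⟩ := by
  classical
  have : Algebra.IsAlgebraic ℚ (algebraicClosure ℚ ℂ) := algebraicClosure.isAlgebraic ℚ ℂ
  have hLA : L ≤ algebraicClosure ℚ ℂ := dsb_aut_le_algebraicClosure L
  have hK : ∀ s ∈ ((algebraicClosure ℚ ℂ : IntermediateField ℚ ℂ) : Set ℂ),
      IsIntegral ℚ s ∧ ((minpoly ℚ s).map (algebraMap ℚ ℂ)).Splits := by
    intro s hs
    refine ⟨(mem_algebraicClosure_iff.mp hs).isIntegral, IsAlgClosed.splits _⟩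
  have hA : algebraicClosure ℚ ℂ ≤ adjoin ℚ ((algebraicClosure ℚ ℂ : IntermediateField ℚ ℂ) : Set ℂ) :=
    subset_adjoin ℚ _
  obtain ⟨ψ, hψ⟩ := exists_algHom_adjoin_of_splits hK φ (hLA.trans hA)
  have hψ' : ∀ (x : ℂ) (hx : x ∈ L) (hx' : x ∈ algebraicClosure ℚ ℂ),
      ψ (inclusion hA ⟨x, hx'⟩) = φ ⟨x, hx⟩ := by
    intro x hx hx'
    rw [← hψ]
    rfl
  have hmem : ∀ a : algebraicClosure ℚ ℂ, ψ (inclusion hA a) ∈ algebraicClosure ℚ ℂ := by
    intro a
    have h1 : IsAlgebraic ℚ a := Algebra.IsAlgebraic.isAlgebraic a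
    have h2 : IsAlgebraic ℚ ((ψ.comp (inclusion hA)) a) := h1.algHom _
    exact mem_algebraicClosure_iff.mpr h2
  let τ₀ : algebraicClosure ℚ ℂ →ₐ[ℚ] algebraicClosure ℚ ℂ :=
    { toFun := fun a => ⟨ψ (inclusion hA a), hmem a⟩
      map_one' := Subtype.ext (by simp)
      map_mul' := fun a b => Subtype.ext (by simp)
      map_zero' := Subtype.ext (by simp)
      map_add' := fun a b => Subtype.ext (by simp)
      commutes' := fun r => Subtype.ext (by simp) }
  have hbij : Function.Bijective τ₀ := Algebra.IsAlgebraic.algHom_bijective τ₀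
  refine ⟨AlgEquiv.ofBijective τ₀ hbij, fun x hx hx' => ?_⟩
  rw [AlgEquiv.coe_ofBijective]
  exact hψ' x hx hx'

/-- An automorphism of the algebraic closure of `ℚ` in `ℂ` extends to an automorphism of `ℂ`. -/
theorem dsb_aut_exists_extend_algEquiv
    (τ : algebraicClosure ℚ ℂ ≃ₐ[ℚ] algebraicClosure ℚ ℂ) :
    ∃ σ : ℂ ≃+* ℂ, ∀ a : algebraicClosure ℚ ℂ, σ (a : ℂ) = (τ a : ℂ) := by
  classical
  obtain ⟨s, hs⟩ := exists_isTranscendenceBasis (algebraicClosure ℚ ℂ) ℂ
  obtain ⟨σ, hσ⟩ := Fermat.Agent.S23.exists_ringEquiv_extending (fun i : s => (i : ℂ)) hs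
    (MvPolynomial.mapEquiv s τ.toRingEquiv)
  refine ⟨σ, fun a => ?_⟩
  have := hσ (C a)
  simp only [aeval_C, MvPolynomial.mapEquiv_apply, map_C] at this
  exact this

/-- **[B5](a)** A ring embedding into `ℂ` of an algebraic subfield `L ⊆ ℂ` extends to an
automorphism of `ℂ`. -/
theorem dsb_exists_aut_extending (L : IntermediateField ℚ ℂ) [Algebra.IsAlgebraic ℚ L]
    (φ : L →+* ℂ) : ∃ σ : ℂ ≃+* ℂ, ∀ x : L, σ x = φ x := by
  obtain ⟨τ, hτ⟩ := dsb_aut_exists_algEquiv L φ.toRatAlgHom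
  obtain ⟨σ, hσ⟩ := dsb_aut_exists_extend_algEquiv τ
  refine ⟨σ, fun x => ?_⟩
  have h1 := hσ ⟨(x : ℂ), dsb_aut_le_algebraicClosure L x.2⟩
  have h2 := hτ (x : ℂ) x.2 (dsb_aut_le_algebraicClosure L x.2)
  rw [h2] at h1
  exact h1

/-- Two embeddings into `ℂ` of a field algebraic over `ℚ` differ by an automorphism of `ℂ`. -/
theorem dsb_aut_exists_of_embeddings {K : Type*} [Field K] [Algebra ℚ K]
    [Algebra.IsAlgebraic ℚ K] (ι τ : K →+* ℂ) : ∃ σ : ℂ ≃+* ℂ, ∀ x : K, σ (ι x) = τ x := by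
  let ιa : K →ₐ[ℚ] ℂ := ι.toRatAlgHom
  let L : IntermediateField ℚ ℂ := ιa.fieldRange
  let e : K ≃ₐ[ℚ] L := AlgEquiv.ofInjectiveField ιa
  have : Algebra.IsAlgebraic ℚ L := e.isAlgebraic
  obtain ⟨σ, hσ⟩ := dsb_exists_aut_extending L (τ.comp (e.symm : L →+* K))
  refine ⟨σ, fun x => ?_⟩
  have h := hσ (e x)
  have h1 : ((e x : L) : ℂ) = ι x := rfl
  rw [h1] at h
  rw [h]
  simp

/-- **[B5](a')** Every embedding `Q̄ → ℂ` is the fixed embedding `ds_iota` followed by an
automorphism of `ℂ`. -/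
theorem dsb_exists_aut_of_embedding (τ : ds_Qb →+* ℂ) :
    ∃ σ : ℂ ≃+* ℂ, ∀ x : ds_Qb, σ (ds_iota x) = τ x := by
  have : Algebra.IsAlgebraic ℚ ds_Qb := AlgebraicClosure.isAlgebraic ℚ
  exact dsb_aut_exists_of_embeddings (ds_iota : ds_Qb →+* ℂ) τ

/-- A transcendental complex number can be translated by `1` by an automorphism of `ℂ`. -/
theorem dsb_aut_exists_translate (x : ℂ) (hx : Transcendental ℚ x) :
    ∃ σ : ℂ ≃+* ℂ, σ x = x + 1 := by
  classical
  have hs : AlgebraicIndepOn ℚ id ({x} : Set ℂ) := by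
    have : AlgebraicIndependent ℚ (fun i : ({x} : Set ℂ) => (i : ℂ)) :=
      (algebraicIndependent_singleton_iff (⟨x, rfl⟩ : ({x} : Set ℂ))).mpr hx
    exact this
  obtain ⟨t, hst, ht⟩ := exists_isTranscendenceBasis_superset hs
  let x0 : t := ⟨x, hst rfl⟩
  let up : MvPolynomial t ℚ →ₐ[ℚ] MvPolynomial t ℚ :=
    aeval fun i => X i + if i = x0 then 1 else 0
  let down : MvPolynomial t ℚ →ₐ[ℚ] MvPolynomial t ℚ :=
    aeval fun i => X i - if i = x0 then 1 else 0
  have h1 : up.comp down = AlgHom.id ℚ _ := by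
    ext i
    simp [up, down]
  have h2 : down.comp up = AlgHom.id ℚ _ := by
    ext i
    simp [up, down]
  let e : MvPolynomial t ℚ ≃ₐ[ℚ] MvPolynomial t ℚ := AlgEquiv.ofAlgHom up down h1 h2
  obtain ⟨σ, hσ⟩ :=
    Fermat.Agent.S23.exists_ringEquiv_extending (fun i : t => (i : ℂ)) ht e.toRingEquiv
  refine ⟨σ, ?_⟩
  have := hσ (X x0)
  simp only [aeval_X] at this
  have h3 : e.toRingEquiv (X x0) = X x0 + 1 := by
    simp [e, up]
  rw [h3] at this
  simp only [map_add, aeval_X, map_one] at this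
  exact this

/-- Iterating: a transcendental complex number can be translated by any natural number. -/
theorem dsb_aut_exists_translate_nat (x : ℂ) (hx : Transcendental ℚ x) (n : ℕ) :
    ∃ σ : ℂ ≃+* ℂ, σ x = x + n := by
  obtain ⟨σ₁, hσ₁⟩ := dsb_aut_exists_translate x hx
  induction n with
  | zero => exact ⟨RingEquiv.refl ℂ, by simp⟩
  | succ n ih =>
    obtain ⟨σ, hσ⟩ := ih
    refine ⟨σ.trans σ₁, ?_⟩
    rw [RingEquiv.trans_apply, hσ, map_add, hσ₁, map_natCast]
    push_cast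
    ring

/-- **[B5](b)** A complex number whose orbit under `Aut(ℂ)` is finite is algebraic over `ℚ`. -/
theorem dsb_isAlgebraic_of_finite_orbit (x : ℂ)
    (h : {y | ∃ σ : ℂ ≃+* ℂ, y = σ x}.Finite) : IsAlgebraic ℚ x := by
  by_contra hx
  have hx' : Transcendental ℚ x := hx
  refine Set.infinite_of_injective_forall_mem (f := fun n : ℕ => x + (n : ℂ)) ?_ ?_ h
  · intro m n hmn
    have : (m : ℂ) = n := add_left_cancel hmn
    exact_mod_cast this
  · intro n
    obtain ⟨σ, hσ⟩ := dsb_aut_exists_translate_nat x hx' n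
    exact ⟨σ, hσ.symm⟩

/-- Two automorphisms of `ℂ` which agree on a set agree on the field it generates. -/
theorem dsb_aut_eq_on_adjoin {S : Set ℂ} (σ σ' : ℂ ≃+* ℂ) (h : ∀ s ∈ S, σ s = σ' s)
    {a : ℂ} (ha : a ∈ IntermediateField.adjoin ℚ S) : σ a = σ' a := by
  induction ha using IntermediateField.adjoin_induction with
  | mem s hs => exact h s hs
  | algebraMap r => simp
  | add a b _ _ iha ihb => rw [map_add, map_add, iha, ihb]
  | inv a _ iha => rw [map_inv₀, map_inv₀, iha]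
  | mul a b _ _ iha ihb => rw [map_mul, map_mul, iha, ihb]

/-- The degree of a finite subextension of the field generated by a family with finite
`Aut(ℂ)`-orbit is bounded by the size of the orbit. -/
theorem dsb_aut_finrank_le {ι : Type*} (x : ι → ℂ)
    (h : {y : ι → ℂ | ∃ σ : ℂ ≃+* ℂ, y = fun i => σ (x i)}.Finite)
    (F : IntermediateField ℚ ℂ) (hF : F ≤ IntermediateField.adjoin ℚ (Set.range x))
    [FiniteDimensional ℚ F] : Module.finrank ℚ F ≤ h.toFinset.card := by
  classical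
  have : Algebra.IsAlgebraic ℚ F := Algebra.IsAlgebraic.of_finite ℚ F
  choose σ hσ using fun φ : F →ₐ[ℚ] ℂ => dsb_exists_aut_extending F (φ : F →+* ℂ)
  rw [← AlgHom.card ℚ F ℂ, ← Finset.card_univ]
  refine Finset.card_le_card_of_injOn (fun φ => fun i => σ φ (x i)) ?_ ?_
  · intro φ _
    rw [Finset.mem_coe, Set.Finite.mem_toFinset]
    exact ⟨σ φ, rfl⟩
  · intro φ _ φ' _ hφφ'
    have h1 : ∀ s ∈ Set.range x, σ φ s = σ φ' s := by
      rintro _ ⟨i, rfl⟩
      exact congrFun hφφ' i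
    ext a
    have h2 := dsb_aut_eq_on_adjoin (σ φ) (σ φ') h1 (hF a.2)
    have h3 := hσ φ a
    have h4 := hσ φ' a
    rw [h2] at h3
    exact (h3.symm.trans h4 : (φ : F →+* ℂ) a = (φ' : F →+* ℂ) a)

/-- **[B5](c)** A family of complex numbers whose orbit under `Aut(ℂ)` is finite generates a
finite extension of `ℚ`. -/
theorem dsb_finiteDimensional_of_finite_orbit {ι : Type*} (x : ι → ℂ)
    (h : {y : ι → ℂ | ∃ σ : ℂ ≃+* ℂ, y = fun i => σ (x i)}.Finite) :
    FiniteDimensional ℚ (IntermediateField.adjoin ℚ (Set.range x)) := by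
  classical
  -- every member of the family is algebraic
  have halg : ∀ i, IsAlgebraic ℚ (x i) := by
    intro i
    apply dsb_isAlgebraic_of_finite_orbit
    refine (h.image (fun y => y i)).subset ?_
    rintro _ ⟨σ, rfl⟩
    exact ⟨fun j => σ (x j), ⟨σ, rfl⟩, rfl⟩
  have hKalg : ∀ a ∈ IntermediateField.adjoin ℚ (Set.range x), IsAlgebraic ℚ a := by
    have h1 := (IntermediateField.isAlgebraic_adjoin_iff_isAlgebraic (F := ℚ)
      (S := Set.range x)).mpr (by
        rintro _ ⟨i, rfl⟩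
        exact halg i)
    intro a ha
    have := h1.isAlgebraic (⟨a, ha⟩ : IntermediateField.adjoin ℚ (Set.range x))
    exact (IntermediateField.isAlgebraic_iff).mp this
  -- a finite subextension of maximal degree
  let P : ℕ → Prop := fun m => ∃ F : IntermediateField ℚ ℂ,
    F ≤ IntermediateField.adjoin ℚ (Set.range x) ∧ FiniteDimensional ℚ F ∧ Module.finrank ℚ F = m
  have hP1 : P 1 := ⟨⊥, bot_le, inferInstance, IntermediateField.finrank_bot⟩
  have hcard : 1 ≤ h.toFinset.card := by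
    have := dsb_aut_finrank_le x h ⊥ bot_le
    rwa [IntermediateField.finrank_bot] at this
  obtain ⟨F₀, hF₀K, hF₀fin, hF₀⟩ : P (Nat.findGreatest P h.toFinset.card) :=
    Nat.findGreatest_spec hcard hP1
  have hmax : ∀ F : IntermediateField ℚ ℂ, F ≤ IntermediateField.adjoin ℚ (Set.range x) →
      FiniteDimensional ℚ F → Module.finrank ℚ F ≤ Module.finrank ℚ F₀ := by
    intro F hFK hFfin
    rw [hF₀]
    exact Nat.le_findGreatest (dsb_aut_finrank_le x h F hFK) ⟨F, hFK, hFfin, rfl⟩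
  -- it is everything
  have hle : IntermediateField.adjoin ℚ (Set.range x) ≤ F₀ := by
    intro a ha
    have ha' : IsIntegral ℚ a := (hKalg a ha).isIntegral
    have : FiniteDimensional ℚ ℚ⟮a⟯ := IntermediateField.adjoin.finiteDimensional ha'
    have hsup : F₀ ⊔ ℚ⟮a⟯ ≤ IntermediateField.adjoin ℚ (Set.range x) :=
      sup_le hF₀K (by
        rw [IntermediateField.adjoin_simple_le_iff]
        exact ha)
    have hfin : FiniteDimensional ℚ (F₀ ⊔ ℚ⟮a⟯ : IntermediateField ℚ ℂ) :=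
      IntermediateField.finiteDimensional_sup F₀ ℚ⟮a⟯
    have heq : F₀ = F₀ ⊔ ℚ⟮a⟯ :=
      IntermediateField.eq_of_le_of_finrank_le le_sup_left (hmax _ hsup hfin)
    rw [heq]
    exact (le_sup_right : ℚ⟮a⟯ ≤ F₀ ⊔ ℚ⟮a⟯) (IntermediateField.mem_adjoin_simple_self ℚ a)
  have heq : IntermediateField.adjoin ℚ (Set.range x) = F₀ := le_antisymm hle hF₀K
  rw [heq]
  exact hF₀fin

end Fermat.Agent.DS
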