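import Mathlib
import Fermat.Agent.DS.Rat.ConjGen
import Fermat.Agent.S23.Hconj

/-!
# DS-B / leaf [B1] of helper8's design #1625 (prefix `dsb_`): `S_k(Γ₀(N))` is stable under
ring endomorphisms of `ℂ` acting on `q`-expansions, for EVERY weight `k`

Instance of the generic S23 conjugation theorem `dsb_exists_conj` (`DS/Rat/ConjGen.lean`) at
`Γ = Γ₀(N)` with the primitive element `Δ(Nz)` of `S23/DeltaN.lean`.
-/

set_option autoImplicit false

open UpperHalfPlane ModularForm CongruenceSubgroup ModularFormClass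
open scoped MatrixGroups Manifold

namespace Fermat.Agent.DS

open Fermat.Agent.S23

/-- **[B1]**: every ring endomorphism `σ` of `ℂ` acts on `S_k(Γ₀(N))` through `q`-expansions. -/
theorem dsb_conj_Gamma0 (N : ℕ) [NeZero N] (k : ℤ) (σ : ℂ →+* ℂ) (F : CuspForm (Gamma0 N) k) :
    ∃ G : CuspForm (Gamma0 N) k, qExpansion 1 G = (qExpansion 1 F).map σ :=
  dsb_exists_conj (Γ := Gamma0 N) (one_mem_strictPeriods_G0 N) (deltaNForm N)
    (fun σ => deltaN_qExpansion_map_of_rational N σ LOC.discriminant_qExpansion_rational)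
    (quotientFunc_deltaNForm_eq_self N) σ F

/-- coefficient form of `dsb_conj_Gamma0`. -/
theorem dsb_conj_Gamma0_qCoeff (N : ℕ) [NeZero N] (k : ℤ) (σ : ℂ →+* ℂ)
    (F : CuspForm (Gamma0 N) k) :
    ∃ G : CuspForm (Gamma0 N) k, ∀ n, qCoeff ⇑G n = σ (qCoeff ⇑F n) := by
  obtain ⟨G, hG⟩ := dsb_conj_Gamma0 N k σ F
  refine ⟨G, fun n => ?_⟩
  simp only [qCoeff, hG, PowerSeries.coeff_map]

end Fermat.Agent.DS
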