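import Fermat.Agent.S22
import Fermat.Agent.S22.Reductions
import Fermat.Agent.S23.BoundedDenominators
import Fermat.Agent.S23.RationalSpan
import Fermat.Agent.DS.Conj.Gamma0K

set_option autoImplicit false

/-!
# DS-B leaf [B4]: the integral structure of `S_k(Γ₀(N))` in every weight

Port of `Fermat/Agent/S23/{BoundedDenominators, ConjReduction}.lean` from weight `2` to an
arbitrary weight `k`:

* `dsb_qc_heckeT`, `dsb_qc_heckeU` : the effect of `T_ℓ`, `U_q` on `q`-coefficients in weight `k`;
* `dsb_exists_hecke_coeff` : for `1 ≤ k` and `0 < n` there is `t` in the full Hecke algebra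
  with `a₁(t f) = a_n(f)`;
* `dsb_exists_pos_nat_smul_integral` : bounded denominators of a rational form;
* `dsb_intStruct` : stability under `Aut(ℂ)` implies `CuspForm.HasIntegralStructure N k`;
* `dsb_intStruct_Gamma0` : `CuspForm.HasIntegralStructure N k`, unconditionally.
-/

open CuspForm CongruenceSubgroup ModularFormClass UpperHalfPlane

namespace Fermat.Agent.DS

open Fermat.Agent.S49

variable {N : ℕ} [NeZero N]

omit [NeZero N] in
theorem dsb_qc_heckeT (k : ℤ) {ℓ : ℕ} (hℓ : ℓ.Prime) (hℓN : ¬ ℓ ∣ N)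
    (f : CuspForm (Gamma0 N) k) (n : ℕ) :
    qCoeff ⇑(heckeTLin k hℓ hℓN f) n =
      qCoeff ⇑f (n * ℓ) + if ℓ ∣ n then (ℓ : ℂ) ^ (k - 1) * qCoeff ⇑f (n / ℓ) else 0 := by
  rw [CuspForm.coe_heckeTLin_apply, ModularFormClass.qCoeff_heckeT f (hΓ0 N) hℓ.ne_zero n,
    ModularForm.coeffHeckeT_apply]

theorem dsb_qc_heckeU (k : ℤ) {q : ℕ} (hq : q.Prime) (hqN : q ∣ N)
    (f : CuspForm (Gamma0 N) k) (n : ℕ) :
    qCoeff ⇑(heckeULin k hqN f) n = qCoeff ⇑f (n * q) := by
  rw [CuspForm.coe_heckeULin_apply, ModularFormClass.qCoeff_heckeU f (hΓ0 N) hq.ne_zero n,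
    ModularForm.coeffHeckeU_apply]

/-- The Hecke operator `T_n` inside the full Hecke algebra (weight `k ≥ 1`): its first
coefficient functional reads off the `n`-th coefficient. -/
theorem dsb_exists_hecke_coeff (k : ℤ) (hk : 1 ≤ k) (n : ℕ) (hn : 0 < n) :
    ∃ t : heckeAlgebra N k (∅ : Set ℕ), ∀ f : CuspForm (Gamma0 N) k,
      qCoeff ⇑((t : Module.End ℂ (CuspForm (Gamma0 N) k)) f) 1 = qCoeff ⇑f n := by
  induction n using Nat.strong_induction_on with
  | _ n ih =>
    rcases eq_or_lt_of_le (Nat.one_le_of_lt hn) with h1 | h1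
    · subst h1
      exact ⟨1, fun f => rfl⟩
    · -- n > 1
      set p := n.minFac with hp_def
      have hp : p.Prime := Nat.minFac_prime (by omega)
      have hpn : p ∣ n := Nat.minFac_dvd n
      obtain ⟨m, hm⟩ := hpn
      have hm0 : 0 < m := by
        rcases Nat.eq_zero_or_pos m with h | h
        · rw [h, mul_zero] at hm; omega
        · exact h
      have hmn : m < n := by
        rw [hm]
        exact lt_mul_of_one_lt_left hm0 hp.one_lt
      obtain ⟨tm, htm⟩ := ih m hmn hm0
      have hnm : n = m * p := by rw [hm, mul_comm]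
      by_cases hpN : p ∣ N
      · -- U operator
        refine ⟨tm * heckeAlgebra.U hp hpN (Set.notMem_empty p), fun f => ?_⟩
        have : ((tm * heckeAlgebra.U hp hpN (Set.notMem_empty p) : heckeAlgebra N k (∅ : Set ℕ)) :
            Module.End ℂ (CuspForm (Gamma0 N) k)) f =
            (tm : Module.End ℂ (CuspForm (Gamma0 N) k)) (heckeULin k hpN f) := rfl
        rw [this, htm, dsb_qc_heckeU k hp hpN, hnm]
      · -- T operator
        by_cases hpm : p ∣ m
        · obtain ⟨m', hm'⟩ := hpm
          have hm'0 : 0 < m' := by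
            rcases Nat.eq_zero_or_pos m' with h | h
            · rw [h, mul_zero] at hm'; omega
            · exact h
          have hm'n : m' < n := by
            have : m' ≤ m := by rw [hm']; exact Nat.le_mul_of_pos_left m' hp.pos
            omega
          obtain ⟨tm', htm'⟩ := ih m' hm'n hm'0
          refine ⟨tm * heckeAlgebra.T hp hpN (Set.notMem_empty p) -
            ((p : ℤ) ^ (k - 1).toNat) • tm', fun f => ?_⟩
          have h1 : ((tm * heckeAlgebra.T hp hpN (Set.notMem_empty p) -
              ((p : ℤ) ^ (k - 1).toNat) • tm' :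
              heckeAlgebra N k (∅ : Set ℕ)) : Module.End ℂ (CuspForm (Gamma0 N) k)) f =
              (tm : Module.End ℂ (CuspForm (Gamma0 N) k)) (heckeTLin k hp hpN f) -
                ((p : ℤ) ^ (k - 1).toNat) •
                  ((tm' : Module.End ℂ (CuspForm (Gamma0 N) k)) f) := rfl
          have hsub : ∀ a b : CuspForm (Gamma0 N) k,
              qCoeff ⇑(a - b) 1 = qCoeff ⇑a 1 - qCoeff ⇑b 1 :=
            fun a b => map_sub (qcLin N k 1) a b
          have hzs : ∀ (z : ℤ) (a : CuspForm (Gamma0 N) k),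
              qCoeff ⇑(z • a) 1 = z * qCoeff ⇑a 1 := by
            intro z a
            have := map_zsmul (qcLin N k 1) z a
            rw [qcLin_apply, qcLin_apply, zsmul_eq_mul] at this
            exact this
          rw [h1, hsub, hzs, htm, htm', dsb_qc_heckeT k hp hpN, if_pos ⟨m', hm'⟩, hnm]
          have : m / p = m' := by rw [hm']; exact Nat.mul_div_cancel_left m' hp.pos
          rw [this]
          have hpow : (((p : ℤ) ^ (k - 1).toNat : ℤ) : ℂ) = (p : ℂ) ^ (k - 1) := by
            have hk1 : (k - 1 : ℤ) = ((k - 1).toNat : ℤ) := by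
              rw [Int.toNat_of_nonneg]; omega
            rw [hk1]
            simp only [Int.toNat_natCast]
            push_cast
            rw [zpow_natCast]
          rw [hpow]
          ring
        · refine ⟨tm * heckeAlgebra.T hp hpN (Set.notMem_empty p), fun f => ?_⟩
          have : ((tm * heckeAlgebra.T hp hpN (Set.notMem_empty p) : heckeAlgebra N k (∅ : Set ℕ)) :
              Module.End ℂ (CuspForm (Gamma0 N) k)) f =
              (tm : Module.End ℂ (CuspForm (Gamma0 N) k)) (heckeTLin k hp hpN f) := rfl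
          rw [this, htm, dsb_qc_heckeT k hp hpN, if_neg hpm, add_zero, hnm]

/-- Bounded denominators in weight `k ≥ 1`: a cusp form with rational `q`-expansion has a
positive integer multiple with integral `q`-expansion, provided the Hecke algebra is finite
over `ℤ`. -/
theorem dsb_exists_pos_nat_smul_integral (k : ℤ) (hk : 1 ≤ k)
    (hfin : Module.Finite ℤ (heckeAlgebra N k (∅ : Set ℕ))) (f : CuspForm (Gamma0 N) k)
    (hf : ∀ n, ∃ r : ℚ, qCoeff ⇑f n = (r : ℂ)) :
    ∃ D : ℕ, 0 < D ∧ ∀ n, ∃ m : ℤ, qCoeff ⇑((D : ℂ) • f) n = (m : ℂ) := by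
  -- the functional t ↦ a_1(t f)
  let φ : heckeAlgebra N k (∅ : Set ℕ) →ₗ[ℤ] ℂ :=
    { toFun := fun t => qCoeff ⇑((t : Module.End ℂ (CuspForm (Gamma0 N) k)) f) 1
      map_add' := fun s t => by
        show qCoeff ⇑(((s : Module.End ℂ (CuspForm (Gamma0 N) k)) +
          (t : Module.End ℂ (CuspForm (Gamma0 N) k))) f) 1 = _
        rw [LinearMap.add_apply]
        exact map_add (qcLin N k 1) _ _
      map_smul' := fun z t => by
        show qCoeff ⇑((z • (t : Module.End ℂ (CuspForm (Gamma0 N) k))) f) 1 = _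
        rw [LinearMap.smul_apply]
        have := map_zsmul (qcLin N k 1) z ((t : Module.End ℂ (CuspForm (Gamma0 N) k)) f)
        rw [qcLin_apply, qcLin_apply] at this
        rw [this]; rfl }
  have hMfg : (LinearMap.range φ).FG := by
    have : (⊤ : Submodule ℤ (heckeAlgebra N k (∅ : Set ℕ))).FG := hfin.fg_top
    rw [LinearMap.range_eq_map]
    exact this.map φ
  set A : Submodule ℤ ℂ := Submodule.span ℤ (Set.range fun n : ℕ => qCoeff ⇑f n) with hA
  have hAle : A ≤ LinearMap.range φ := by
    rw [hA, Submodule.span_le]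
    rintro _ ⟨n, rfl⟩
    rcases Nat.eq_zero_or_pos n with h0 | hpos
    · subst h0
      show qCoeff ⇑f 0 ∈ LinearMap.range φ
      rw [qc_coeff_zero]
      exact Submodule.zero_mem _
    · obtain ⟨t, ht⟩ := dsb_exists_hecke_coeff (N := N) k hk n hpos
      exact ⟨t, ht f⟩
  have hAfg : A.FG := Submodule.FG.of_le hMfg hAle
  have hArat : ∀ x ∈ A, ∃ r : ℚ, x = (r : ℂ) := by
    intro x hx
    induction hx using Submodule.span_induction with
    | mem y hy =>
      obtain ⟨n, rfl⟩ := hy
      exact hf n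
    | zero => exact ⟨0, by simp⟩
    | add a b _ _ ha hb =>
      obtain ⟨r, hr⟩ := ha
      obtain ⟨r', hr'⟩ := hb
      exact ⟨r + r', by rw [hr, hr']; push_cast; ring⟩
    | smul z a _ ha =>
      obtain ⟨r, hr⟩ := ha
      exact ⟨z * r, by rw [zsmul_eq_mul, hr]; push_cast; ring⟩
  obtain ⟨D, hD, hDint⟩ := Fermat.Agent.S23.exists_common_denominator hAfg hArat
  refine ⟨D, hD, fun n => ?_⟩
  obtain ⟨m, hm⟩ := hDint (qCoeff ⇑f n) (Submodule.subset_span ⟨n, rfl⟩)
  exact ⟨m, by rw [qc_smul, hm]⟩

/-- If the forms with rational `q`-expansion span, then there is an integral structure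
(weight `k ≥ 1`). -/
theorem dsb_intStruct_of_rational_span (k : ℤ) (hk : 1 ≤ k)
    (hfin : Module.Finite ℤ (heckeAlgebra N k (∅ : Set ℕ)))
    (hspan : Submodule.span ℂ {f : CuspForm (Gamma0 N) k | ∀ n, ∃ r : ℚ, qCoeff ⇑f n = (r : ℂ)}
      = ⊤) : CuspForm.HasIntegralStructure N k := by
  rw [CuspForm.HasIntegralStructure, eq_top_iff, ← hspan, Submodule.span_le]
  intro f hf
  obtain ⟨D, hD, hDint⟩ := dsb_exists_pos_nat_smul_integral k hk hfin f hf
  have hmem : ((D : ℂ) • f) ∈ CuspForm.intLattice N k := (mem_intLattice_iff' _).mpr hDint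
  have hD0 : (D : ℂ) ≠ 0 := by exact_mod_cast hD.ne'
  have : f = (D : ℂ)⁻¹ • ((D : ℂ) • f) := by rw [smul_smul, inv_mul_cancel₀ hD0, one_smul]
  rw [this]
  exact Submodule.smul_mem _ _ (Submodule.subset_span hmem)

/-- In weight `k ≤ 0` there are no cusp forms, so the integral structure is trivial. -/
theorem dsb_intStruct_of_nonpos (N : ℕ) [NeZero N] (k : ℤ) (hk : k ≤ 0) :
    CuspForm.HasIntegralStructure N k := by
  have hz : ∀ f : CuspForm (Gamma0 N) k, f = 0 := by
    intro f
    rcases lt_or_eq_of_le hk with h | h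
    · exact Fermat.Agent.S22.cuspForm_eq_zero_of_neg N h f
    · subst h
      exact Fermat.Agent.S22.cuspForm_eq_zero_of_zero N f
  rw [CuspForm.HasIntegralStructure, eq_top_iff]
  intro f _
  rw [hz f]
  exact Submodule.zero_mem _

/-- **[B4]** `S_k(Γ₀(N))` has an integral structure as soon as it is stable under conjugating
`q`-expansions by every automorphism of `ℂ`. -/
theorem dsb_intStruct (N : ℕ) [NeZero N] (k : ℤ)
    (hconj : ∀ (σ : ℂ ≃+* ℂ) (F : CuspForm (Gamma0 N) k),
      ∃ G : CuspForm (Gamma0 N) k, ∀ n, qCoeff ⇑G n = σ (qCoeff ⇑F n)) :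
    CuspForm.HasIntegralStructure N k := by
  rcases le_or_gt k 0 with hk | hk
  · exact dsb_intStruct_of_nonpos N k hk
  · exact dsb_intStruct_of_rational_span k (by omega) (Fermat.Agent.S22.result N k ∅)
      (Fermat.Agent.S23.rational_span_of_conj N k hconj)

/-- `S_k(Γ₀(N))` has an integral structure, for every level and every weight. -/
theorem dsb_intStruct_Gamma0 (N : ℕ) [NeZero N] (k : ℤ) : CuspForm.HasIntegralStructure N k :=
  dsb_intStruct N k fun σ F => dsb_conj_Gamma0_qCoeff N k (σ : ℂ →+* ℂ) F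

end Fermat.Agent.DS
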