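import Mathlib
import Fermat.Agent.JT3.Gateway.TwistedEisenstein

/-!
# DS-B, leaf [B2]: `q`-expansions of twisted Eisenstein series whose weight depends on `v₀` only

For a bounded `ψ : ℤ → ℂ` and `k ≥ 3`, `twe_E (fun v => ψ (v 0)) k` (helper17's twisted Eisenstein
series `∑' v, ψ(v₀) (v₀ z + v₁)^{-k}`) has the `q`-expansion
`ψ(0) ∑_{n ≠ 0} n^{-k} + C_k ∑_{e ≥ 1} (∑_{d r = e} (ψ(d) + (-1)^k ψ(-d)) r^{k-1}) q^e`,
`C_k = (-2πi)^k/(k-1)!` (Lipschitz formula).  `dsb_twe_hasSum` is the `HasSum` form.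
-/

set_option autoImplicit false

open UpperHalfPlane hiding I
open ModularForm EisensteinSeries Matrix CongruenceSubgroup Filter Topology Complex
open scoped MatrixGroups Manifold Real

namespace Fermat.Agent.DS

open Fermat.Agent.JT3

noncomputable section


/-- the inner lattice sum `∑_n (c z + n)^{-k}`. -/
def dsb_S (k : ℕ) (c : ℤ) (z : ℍ) : ℂ := ∑' n : ℤ, eisSummand k ![c, n] z

/-- the Lipschitz constant `(-2πi)^k / (k-1)!`. -/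
def dsb_C (k : ℕ) : ℂ := (-2 * π * I) ^ k / (k - 1).factorial

theorem dsb_S_pos {k : ℕ} (hk : 2 ≤ k) (d : ℕ+) (z : ℍ) :
    dsb_S k (d : ℤ) z =
      dsb_C k * ∑' r : ℕ+, (r : ℂ) ^ (k - 1) * cexp (2 * π * I * z) ^ ((d : ℕ) * (r : ℕ)) := by
  have hdz : 0 < ((d : ℂ) * (z : ℂ)).im := by
    simpa using z.2
  have H := qExpansion_identity_pnat (k := k - 1) (by omega) ⟨(d : ℂ) * z, hdz⟩
  have hk1 : k - 1 + 1 = k := by omega
  rw [hk1] at H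
  unfold dsb_S dsb_C
  have e1 : ∀ r : ℕ+, (r : ℂ) ^ (k - 1) * cexp (2 * π * I * z) ^ ((d : ℕ) * (r : ℕ)) =
      (r : ℂ) ^ (k - 1) * cexp (2 * π * I * ((⟨(d : ℂ) * z, hdz⟩ : ℍ) : ℂ)) ^ (r : ℕ) := by
    intro r
    congr 1
    rw [pow_mul, ← Complex.exp_nat_mul (2 * π * I * z) d]
    congr 2
    show (d : ℂ) * (2 * π * I * z) = 2 * π * I * ((d : ℂ) * z)
    ring
  simp_rw [e1]
  rw [← H]
  refine tsum_congr fun n => ?_
  simp only [eisSummand, Matrix.cons_val_zero, Matrix.cons_val_one, Int.cast_natCast, one_div]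
  rw [_root_.zpow_neg, zpow_natCast]


theorem dsb_S_neg (k : ℕ) (c : ℤ) (z : ℍ) : dsb_S k (-c) z = (-1) ^ k * dsb_S k c z := by
  unfold dsb_S
  rw [← tsum_mul_left, ← (Equiv.neg ℤ).tsum_eq]
  refine tsum_congr fun n => ?_
  simp only [Equiv.neg_apply, eisSummand, Matrix.cons_val_zero, Matrix.cons_val_one,
    Int.cast_neg]
  have : (-(c : ℂ) * (z : ℂ) + -(n : ℂ)) = -((c : ℂ) * z + n) := by ring
  rw [this, _root_.zpow_neg, _root_.zpow_neg, zpow_natCast, zpow_natCast, neg_pow, mul_inv]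
  congr 1
  rcases Nat.even_or_odd k with hk | hk
  · simp [hk.neg_one_pow]
  · simp [hk.neg_one_pow]

theorem dsb_S_zero (k : ℕ) (z : ℍ) : dsb_S k 0 z = ∑' n : ℤ, ((n : ℂ) ^ k)⁻¹ := by
  unfold dsb_S
  refine tsum_congr fun n => ?_
  simp [eisSummand, _root_.zpow_neg]




theorem dsb_summable_prod {ψ : ℤ → ℂ} (hψ : ∀ c, ‖ψ c‖ ≤ 1) {k : ℕ} (hk : 3 ≤ k) (z : ℍ) :
    Summable fun x : ℤ × ℤ => ψ x.1 * eisSummand k ![x.1, x.2] z := by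
  have h := twe_summable (w := fun v => ψ (v 0)) (fun v => hψ (v 0)) (k := (k : ℤ))
    (by exact_mod_cast hk) z
  refine (finTwoArrowEquiv ℤ).summable_iff.mp (h.congr fun v => ?_)
  simp [show ![v 0, v 1] = v from List.ofFn_inj.mp rfl]

theorem dsb_twe_eq_tsum {ψ : ℤ → ℂ} (hψ : ∀ c, ‖ψ c‖ ≤ 1) {k : ℕ} (hk : 3 ≤ k) (z : ℍ) :
    twe_E (fun v => ψ (v 0)) k z = ∑' c : ℤ, ψ c * dsb_S k c z := by
  unfold twe_E dsb_S
  rw [← (finTwoArrowEquiv ℤ).symm.tsum_eq]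
  simp only [finTwoArrowEquiv_symm_apply, Matrix.cons_val_zero]
  rw [(dsb_summable_prod hψ hk z).tsum_prod]
  refine tsum_congr fun c => ?_
  simp [tsum_mul_left]

theorem dsb_summable_c {ψ : ℤ → ℂ} (hψ : ∀ c, ‖ψ c‖ ≤ 1) {k : ℕ} (hk : 3 ≤ k) (z : ℍ) :
    Summable fun c : ℤ => ψ c * dsb_S k c z := by
  have := (dsb_summable_prod hψ hk z).prod
  refine this.congr fun c => ?_
  simp [dsb_S, tsum_mul_left]



/-- Rearranging a summable double series over `ℕ+ × ℕ+` along the products `e = d * c`. -/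
theorem dsb_tsum_prod_eq_tsum_antidiagonal (F : ℕ → ℕ → ℂ)
    (hF : Summable (fun c : ℕ+ × ℕ+ => F c.1 c.2)) :
    Summable (fun e : ℕ+ => ∑ x ∈ (e : ℕ).divisorsAntidiagonal, F x.1 x.2) ∧
    ∑' c : ℕ+ × ℕ+, F c.1 c.2 =
      ∑' e : ℕ+, ∑ x ∈ (e : ℕ).divisorsAntidiagonal, F x.1 x.2 := by
  have hS : Summable (fun x : (Σ n : ℕ+, Nat.divisorsAntidiagonal n) =>
      F (sigmaAntidiagonalEquivProd x).1 (sigmaAntidiagonalEquivProd x).2) :=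
    (sigmaAntidiagonalEquivProd.summable_iff (f := fun c : ℕ+ × ℕ+ => F c.1 c.2)).mpr hF
  have hfib : ∀ n : ℕ+, ∑' y : Nat.divisorsAntidiagonal n,
      F (sigmaAntidiagonalEquivProd ⟨n, y⟩).1 (sigmaAntidiagonalEquivProd ⟨n, y⟩).2 =
      ∑ x ∈ (n : ℕ).divisorsAntidiagonal, F x.1 x.2 := by
    intro n
    rw [tsum_fintype, Finset.univ_eq_attach]
    exact (n : ℕ).divisorsAntidiagonal.sum_attach (fun x : ℕ × ℕ => F x.1 x.2)
  constructor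
  · have := hS.sigma
    exact this.congr hfib
  · rw [← sigmaAntidiagonalEquivProd.tsum_eq (fun c : ℕ+ × ℕ+ => F c.1 c.2), hS.tsum_sigma]
    exact tsum_congr hfib

theorem dsb_summable_F (k : ℕ) (u : ℕ → ℂ) (B : ℝ) (hu : ∀ d, ‖u d‖ ≤ B) {r : ℂ} (hr : ‖r‖ < 1) :
    Summable (fun c : ℕ+ × ℕ+ => u c.1 * (c.2 : ℂ) ^ k * r ^ ((c.1 : ℕ) * (c.2 : ℕ))) := by
  have h0 : Summable fun c : ℕ+ × ℕ+ => ((c.2 : ℕ) : ℝ) ^ k * ‖r‖ ^ ((c.1 : ℕ) * (c.2 : ℕ)) := by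
    have := summable_prod_mul_pow (𝕜 := ℝ) k (r := ‖r‖) (by simpa using hr)
    simpa using this
  refine Summable.of_norm_bounded (h0.mul_left B) fun c => ?_
  rw [norm_mul, norm_mul, norm_pow, norm_pow, Complex.norm_natCast, mul_assoc]
  exact mul_le_mul_of_nonneg_right (hu _) (by positivity)



/-- the twisted divisor sum `∑_{d r = e} (ψ(d) + (-1)^k ψ(-d)) r^{k-1}`. -/
def dsb_div (ψ : ℤ → ℂ) (k : ℕ) (e : ℕ) : ℂ :=
  ∑ x ∈ e.divisorsAntidiagonal, (ψ (x.1 : ℤ) + (-1) ^ k * ψ (-(x.1 : ℤ))) * (x.2 : ℂ) ^ (k - 1)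

theorem dsb_twe_expand {ψ : ℤ → ℂ} (hψ : ∀ c, ‖ψ c‖ ≤ 1) {k : ℕ} (hk : 3 ≤ k) (z : ℍ) :
    Summable (fun e : ℕ+ => dsb_div ψ k e * cexp (2 * π * I * z) ^ (e : ℕ)) ∧
    twe_E (fun v => ψ (v 0)) k z = ψ 0 * dsb_S k 0 z +
      dsb_C k * ∑' e : ℕ+, dsb_div ψ k e * cexp (2 * π * I * z) ^ (e : ℕ) := by
  set q : ℂ := cexp (2 * π * I * z) with hq
  have hq1 : ‖q‖ < 1 := norm_exp_two_pi_I_lt_one z
  set u : ℕ → ℂ := fun d => ψ (d : ℤ) + (-1) ^ k * ψ (-(d : ℤ)) with hu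
  have hub : ∀ d, ‖u d‖ ≤ 2 := by
    intro d
    refine (norm_add_le _ _).trans ?_
    rw [norm_mul, norm_pow, norm_neg, norm_one, one_pow, one_mul]
    have := hψ (d : ℤ)
    have := hψ (-(d : ℤ))
    linarith
  have hF := dsb_summable_F (k - 1) u 2 hub hq1
  obtain ⟨hsum, hrearr⟩ := dsb_tsum_prod_eq_tsum_antidiagonal
    (fun d r => u d * (r : ℂ) ^ (k - 1) * q ^ (d * r)) hF
  have hfib : ∀ e : ℕ+, ∑ x ∈ (e : ℕ).divisorsAntidiagonal,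
      u x.1 * (x.2 : ℂ) ^ (k - 1) * q ^ (x.1 * x.2) = dsb_div ψ k e * q ^ (e : ℕ) := by
    intro e
    unfold dsb_div
    rw [Finset.sum_mul]
    refine Finset.sum_congr rfl fun x hx => ?_
    rw [(Nat.mem_divisorsAntidiagonal.mp hx).1]
  refine ⟨hsum.congr hfib, ?_⟩
  rw [dsb_twe_eq_tsum hψ hk z, tsum_int_eq_zero_add_tsum_pnat (dsb_summable_c hψ hk z)]
  have hsc := dsb_summable_c hψ hk z
  have h1 : Summable fun n : ℕ+ => ψ (n : ℤ) * dsb_S k (n : ℤ) z := by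
    have := (summable_int_iff_summable_nat_and_neg.mp hsc).1
    exact (summable_pnat_iff_summable_nat (f := fun n : ℕ => ψ (n : ℤ) * dsb_S k (n : ℤ) z)).mpr this
  have h2 : Summable fun n : ℕ+ => ψ (-(n : ℤ)) * dsb_S k (-(n : ℤ)) z := by
    have := (summable_int_iff_summable_nat_and_neg.mp hsc).2
    exact (summable_pnat_iff_summable_nat
      (f := fun n : ℕ => ψ (-(n : ℤ)) * dsb_S k (-(n : ℤ)) z)).mpr this
  rw [add_assoc, ← h1.tsum_add h2]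
  congr 1
  rw [← hrearr.trans (tsum_congr hfib), hF.tsum_prod, ← tsum_mul_left]
  refine tsum_congr fun d => ?_
  rw [dsb_S_neg, dsb_S_pos (by omega) d z, ← hq]
  have e1 : ψ (d : ℤ) * (dsb_C k * ∑' r : ℕ+, (r : ℂ) ^ (k - 1) * q ^ ((d : ℕ) * (r : ℕ))) +
      ψ (-(d : ℤ)) * ((-1) ^ k * (dsb_C k * ∑' r : ℕ+, (r : ℂ) ^ (k - 1) * q ^ ((d : ℕ) * (r : ℕ)))) =
      dsb_C k * (u d * ∑' r : ℕ+, (r : ℂ) ^ (k - 1) * q ^ ((d : ℕ) * (r : ℕ))) := by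
    simp only [hu]
    ring
  rw [e1, ← tsum_mul_left]
  congr 1
  refine tsum_congr fun r => ?_
  ring


/-- the `q`-expansion coefficients of `twe_E (ψ ∘ v₀) k`. -/
def dsb_tcoef (ψ : ℤ → ℂ) (k : ℕ) (e : ℕ) : ℂ :=
  if e = 0 then ψ 0 * ∑' n : ℤ, ((n : ℂ) ^ k)⁻¹ else dsb_C k * dsb_div ψ k e

theorem dsb_twe_hasSum {ψ : ℤ → ℂ} (hψ : ∀ c, ‖ψ c‖ ≤ 1) {k : ℕ} (hk : 3 ≤ k) (z : ℍ) :
    HasSum (fun e : ℕ => dsb_tcoef ψ k e * cexp (2 * π * I * z) ^ e)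
      (twe_E (fun v => ψ (v 0)) k z) := by
  obtain ⟨hsum, hval⟩ := dsb_twe_expand hψ hk z
  rw [hval, add_comm]
  have h0 : ψ 0 * dsb_S k 0 z =
      (fun e : ℕ => dsb_tcoef ψ k e * cexp (2 * π * I * z) ^ e) 0 := by
    simp [dsb_tcoef, dsb_S_zero]
  rw [h0]
  refine hasSum_pnat_iff.mp ?_
  have := (hsum.mul_left (dsb_C k)).hasSum
  rw [tsum_mul_left] at this
  refine this.congr_fun fun e => ?_
  have he : (e : ℕ) ≠ 0 := e.ne_zero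
  simp [dsb_tcoef, he, mul_assoc]

end

end Fermat.Agent.DS
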