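import Mathlib
import Fermat.Agent.DS.Conj.EisQ

/-!
# DS-B, leaf [B2]: the weight-three Eisenstein series attached to an odd Dirichlet character

For an odd Dirichlet character `χ` modulo `N`,
`dsb_eis χ = (2 C₃)⁻¹ ∑' v, χ(v₀) (v₀ z + v₁)^{-3} = ∑_{e ≥ 1} (∑_{d r = e} χ(d) r²) q^e`
is holomorphic, all its `SL(2,ℤ)`-slashes are bounded at `i∞`, and
`dsb_eis χ ∣[3] γ = χ(γ₁₁) • dsb_eis χ` for `γ ∈ Γ₀(N)`.
-/

set_option autoImplicit false

open UpperHalfPlane hiding I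
open ModularForm EisensteinSeries Matrix CongruenceSubgroup Filter Topology Complex
open scoped MatrixGroups Manifold Real

namespace Fermat.Agent.DS

open Fermat.Agent.JT3

noncomputable section

/-- A bare wrapper giving plain functions `ℍ → ℂ` a `FunLike` structure (Mathlib's uniqueness
lemma for `q`-expansions is stated for `FunLike` types). -/
structure dsb_Fun where
  /-- the underlying function -/
  toFun : ℍ → ℂ

instance : FunLike dsb_Fun ℍ ℂ where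
  coe := dsb_Fun.toFun
  coe_injective a b h := by
    cases a; cases b; congr

/-- uniqueness of `q`-expansion coefficients, for plain functions. -/
theorem dsb_qExpansion_coeff_unique (f : ℍ → ℂ) {c : ℕ → ℂ}
    (han : AnalyticAt ℂ (cuspFunction 1 f) 0)
    (hf : ∀ τ : ℍ, HasSum (fun m : ℕ => c m * cexp (2 * π * I * τ) ^ m) (f τ)) (m : ℕ) :
    (qExpansion 1 f).coeff m = c m := by
  have hs : ∀ τ : ℍ, HasSum (fun m : ℕ => c m • Function.Periodic.qParam (1 : ℝ) τ ^ m)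
      ((⟨f⟩ : dsb_Fun) τ) := by
    intro τ
    refine (hf τ).congr_fun fun m => ?_
    simp [Function.Periodic.qParam]
  exact (qExpansion_coeff_unique (⟨f⟩ : dsb_Fun) one_pos han hs m).symm

variable {N : ℕ} (χ : DirichletCharacter ℂ N)

/-- `c ↦ χ(c mod N)` on `ℤ`. -/
def dsb_psi : ℤ → ℂ := fun c => χ ((c : ZMod N))

theorem dsb_psi_norm_le (c : ℤ) : ‖dsb_psi χ c‖ ≤ 1 := DirichletCharacter.norm_le_one χ _

/-- the weight function `v ↦ χ(v₀)`. -/
def dsb_w : (Fin 2 → ℤ) → ℂ := fun v => dsb_psi χ (v 0)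

theorem dsb_w_norm_le (v : Fin 2 → ℤ) : ‖dsb_w χ v‖ ≤ 1 := dsb_psi_norm_le χ _

/-- the `q`-expansion coefficients `∑_{d r = e} χ(d) r²`. -/
def dsb_ecoef (e : ℕ) : ℂ :=
  ∑ x ∈ e.divisorsAntidiagonal, χ ((x.1 : ZMod N)) * (x.2 : ℂ) ^ 2

/-- the normalised weight-three Eisenstein series with character `χ`. -/
def dsb_eis : ℍ → ℂ := fun z => (2 * dsb_C 3)⁻¹ * twe_E (dsb_w χ) 3 z

theorem dsb_C_ne_zero (k : ℕ) : dsb_C k ≠ 0 := by
  unfold dsb_C
  refine div_ne_zero (pow_ne_zero _ ?_) (Nat.cast_ne_zero.mpr (Nat.factorial_ne_zero _))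
  simp [Real.pi_ne_zero, Complex.I_ne_zero]

theorem dsb_chi_zero (hχ : χ (-1) = -1) : χ 0 = 0 := by
  have h : χ 0 = χ 0 * χ (-1) := by rw [← map_mul, zero_mul]
  rw [hχ] at h
  have : (2 : ℂ) * χ 0 = 0 := by linear_combination h
  simpa using this

theorem dsb_psi_neg (hχ : χ (-1) = -1) (c : ℤ) : dsb_psi χ (-c) = -dsb_psi χ c := by
  unfold dsb_psi
  rw [Int.cast_neg, ← neg_one_mul, map_mul, hχ, neg_one_mul]

theorem dsb_ecoef_one : dsb_ecoef χ 1 = 1 := by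
  simp [dsb_ecoef]

theorem dsb_eis_hasSum (hχ : χ (-1) = -1) (z : ℍ) :
    HasSum (fun e : ℕ => dsb_ecoef χ e * cexp (2 * π * I * z) ^ e) (dsb_eis χ z) := by
  have h := (dsb_twe_hasSum (ψ := dsb_psi χ) (dsb_psi_norm_le χ) (k := 3) le_rfl z).mul_left
    ((2 * dsb_C 3)⁻¹)
  refine h.congr_fun fun e => ?_
  have hC := dsb_C_ne_zero 3
  unfold dsb_tcoef
  by_cases he : e = 0
  · subst he
    have h0 : dsb_psi χ 0 = 0 := by simpa [dsb_psi] using dsb_chi_zero χ hχ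
    simp [dsb_ecoef, h0]
  · rw [if_neg he]
    have hdiv : dsb_div (dsb_psi χ) 3 e = 2 * dsb_ecoef χ e := by
      unfold dsb_div dsb_ecoef
      rw [Finset.mul_sum]
      refine Finset.sum_congr rfl fun x _ => ?_
      rw [dsb_psi_neg χ hχ]
      simp only [dsb_psi, Int.cast_natCast]
      ring
    rw [hdiv]
    field_simp

theorem dsb_eis_mdiff : MDiff (dsb_eis χ) := by
  have h := twe_mdifferentiable (w := dsb_w χ) (dsb_w_norm_le χ) (k := 3) le_rfl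
  have : dsb_eis χ = fun z => (2 * dsb_C 3)⁻¹ • twe_E (dsb_w χ) 3 z := rfl
  rw [this]
  exact h.const_smul _


theorem dsb_eis_slash_bdd (A : SL(2, ℤ)) : IsBoundedAtImInfty (dsb_eis χ ∣[(3 : ℤ)] A) := by
  have h := twe_slash_isBoundedAtImInfty (w := dsb_w χ) (dsb_w_norm_le χ) (k := 3) le_rfl A
  have : dsb_eis χ = (2 * dsb_C 3)⁻¹ • twe_E (dsb_w χ) 3 := rfl
  rw [this, ModularForm.SL_smul_slash]
  exact h.const_smul_left _

theorem dsb_eis_bdd : IsBoundedAtImInfty (dsb_eis χ) := by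
  simpa using dsb_eis_slash_bdd χ 1

/-- the weight `v ↦ χ(v₀)` transforms by `χ(γ₁₁)` under `Γ₀(N)`. -/
theorem dsb_w_vecMul (γ : SL(2, ℤ)) (hγ : γ ∈ Gamma0 N) (v : Fin 2 → ℤ) :
    dsb_w χ ((twe_vecMulEquiv γ).symm v) = χ (((γ 1 1 : ℤ)) : ZMod N) * dsb_w χ v := by
  have hc : ((γ 1 0 : ℤ) : ZMod N) = 0 := Gamma0_mem.mp hγ
  rw [twe_vecMulEquiv_symm_apply]
  unfold dsb_w dsb_psi
  have h0 : (v ᵥ* ((γ⁻¹ : SL(2, ℤ)) : Matrix (Fin 2) (Fin 2) ℤ)) 0 = v 0 * γ 1 1 - v 1 * γ 1 0 := by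
    rw [Matrix.SpecialLinearGroup.SL2_inv_expl]
    simp [Matrix.vecMul, dotProduct, Fin.sum_univ_two]
    ring
  rw [h0, Int.cast_sub, Int.cast_mul, Int.cast_mul, hc, mul_zero, sub_zero, map_mul, mul_comm]

theorem dsb_eis_slash (γ : SL(2, ℤ)) (hγ : γ ∈ Gamma0 N) :
    dsb_eis χ ∣[(3 : ℤ)] γ = χ (((γ 1 1 : ℤ)) : ZMod N) • dsb_eis χ := by
  have : dsb_eis χ = (2 * dsb_C 3)⁻¹ • twe_E (dsb_w χ) 3 := rfl
  rw [this, ModularForm.SL_smul_slash, twe_slash]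
  have hw : (fun v => dsb_w χ ((twe_vecMulEquiv γ).symm v)) =
      fun v => χ (((γ 1 1 : ℤ)) : ZMod N) * dsb_w χ v := funext (dsb_w_vecMul χ γ hγ)
  rw [hw]
  ext z
  simp only [Pi.smul_apply, smul_eq_mul, twe_E]
  simp_rw [mul_assoc]
  rw [tsum_mul_left]
  ring


theorem dsb_eis_periodic (hχ : χ (-1) = -1) :
    Function.Periodic (dsb_eis χ ∘ ofComplex) (1 : ℂ) := by
  intro w
  by_cases hw : 0 < w.im
  · have hw1 : 0 < (w + 1).im := by simpa using hw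
    simp only [Function.comp_apply, ofComplex_apply_of_im_pos hw, ofComplex_apply_of_im_pos hw1]
    have h1 := dsb_eis_hasSum χ hχ ⟨w + 1, hw1⟩
    have h2 := dsb_eis_hasSum χ hχ ⟨w, hw⟩
    have hexp : cexp (2 * π * I * ((⟨w + 1, hw1⟩ : ℍ) : ℂ)) =
        cexp (2 * π * I * ((⟨w, hw⟩ : ℍ) : ℂ)) := by
      show cexp (2 * π * I * (w + 1)) = cexp (2 * π * I * w)
      rw [mul_add, mul_one, Complex.exp_add, Complex.exp_two_pi_mul_I, mul_one]
    rw [hexp] at h1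
    exact h1.unique h2
  · have hw' : w.im ≤ 0 := not_lt.mp hw
    have hw1 : (w + 1).im ≤ 0 := by simpa using hw'
    simp only [Function.comp_apply, ofComplex_apply_of_im_nonpos hw',
      ofComplex_apply_of_im_nonpos hw1]

theorem dsb_eis_analyticAt (hχ : χ (-1) = -1) :
    AnalyticAt ℂ (cuspFunction 1 (dsb_eis χ)) 0 :=
  analyticAt_cuspFunction_zero one_pos (by simpa using dsb_eis_periodic χ hχ) (dsb_eis_mdiff χ)
    (dsb_eis_bdd χ)

theorem dsb_eis_qExpansion_coeff (hχ : χ (-1) = -1) (e : ℕ) :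
    (qExpansion 1 (dsb_eis χ)).coeff e = dsb_ecoef χ e :=
  dsb_qExpansion_coeff_unique (dsb_eis χ) (dsb_eis_analyticAt χ hχ) (dsb_eis_hasSum χ hχ) e

theorem dsb_eis_ne_zero (hχ : χ (-1) = -1) : dsb_eis χ ≠ 0 := by
  intro h0
  have h1 := dsb_eis_qExpansion_coeff χ hχ 1
  rw [h0, qExpansion_zero, dsb_ecoef_one] at h1
  simp at h1

/-- compatibility of the coefficients with ring homomorphisms `σ : ℂ →+* ℂ`. -/
theorem dsb_ecoef_map (σ : ℂ →+* ℂ) (e : ℕ) :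
    σ (dsb_ecoef χ e) = dsb_ecoef (χ.ringHomComp σ) e := by
  unfold dsb_ecoef
  rw [map_sum]
  refine Finset.sum_congr rfl fun x _ => ?_
  rw [map_mul, map_pow, map_natCast σ]
  rfl

theorem dsb_eis_qExpansion_map (hχ : χ (-1) = -1) (σ : ℂ →+* ℂ) :
    qExpansion 1 (dsb_eis (χ.ringHomComp σ)) = (qExpansion 1 (dsb_eis χ)).map σ := by
  have hχ' : (χ.ringHomComp σ) (-1) = -1 := by
    show σ (χ (-1)) = -1
    rw [hχ, map_neg, map_one]
  ext e
  rw [PowerSeries.coeff_map, dsb_eis_qExpansion_coeff χ hχ, dsb_eis_qExpansion_coeff _ hχ',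
    dsb_ecoef_map]

end

end Fermat.Agent.DS
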