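import Mathlib
import Fermat.Agent.DS.Conj.Eis
import Fermat.Agent.DS.Conj.Gamma0K
import Fermat.Agent.S23.ConjModular
import Fermat.Agent.S23.Assembly
import Fermat.Agent.DS.Neben.Diamond

/-!
# DS-B, leaf [B3]: conjugation of weight-one cusp forms with nebentypus

`dsb_conj_neben`: if `g ∈ S₁(Γ₁(N))` has nebentypus `χ` on `Γ₀(N)` (`χ` odd), then for every ring
endomorphism `σ` of `ℂ` the series `∑ σ(a_n) qⁿ` is the `q`-expansion of a cusp form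
`g' ∈ S₁(Γ₁(N))` with nebentypus `σ ∘ χ`.

Proof: `C := dsb_eis χ⁻¹` (weight `3`, nebentypus `χ⁻¹`), `B := g·C ∈ S₄(Γ₀(N))`,
`F := g^m ∈ S_m(Γ₀(N))` (`m = orderOf χ`); conjugates of `B`, `F` exist by `dsb_conj_Gamma0`, the
conjugate of `C` is `dsb_eis (σ∘χ⁻¹)`, and S23's engine `QF.exists_conj_of_div` (with the monic
relation `X^m - F`) produces `g'`.
-/

set_option autoImplicit false

open UpperHalfPlane hiding I
open ModularForm CongruenceSubgroup ModularFormClass Filter Topology Complex Function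
open scoped MatrixGroups Manifold Real

namespace Fermat.Agent.DS

open Fermat.Agent.S23 Fermat.Agent.S23.QF

variable {N : ℕ} [NeZero N]

theorem dsb_one_mem_strictPeriods_Gamma1 :
    (1 : ℝ) ∈ (Gamma1 N : Subgroup (GL (Fin 2) ℝ)).strictPeriods := by
  rw [strictPeriods_Gamma1]
  exact AddSubgroup.mem_zmultiples 1

theorem dsb_isQFun_Gamma1 {k : ℤ} (f : CuspForm (Gamma1 N) k) : IsQFun (f : ℍ → ℂ) where
  mdiff := CuspFormClass.holo f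
  periodic := by
    have := SlashInvariantFormClass.periodic_comp_ofComplex f
      (dsb_one_mem_strictPeriods_Gamma1 (N := N))
    simpa using this
  bdd := (CuspFormClass.zero_at_infty f).isBoundedAtImInfty

/-- packaging a function as a cusp form on `Γ₀(N)`. -/
theorem dsb_mk_cuspForm_Gamma0 (k : ℤ) (F : ℍ → ℂ) (hF : MDiff F)
    (hinv : ∀ γ : SL(2, ℤ), γ ∈ Gamma0 N → F ∣[k] γ = F)
    (hzero : ∀ δ : SL(2, ℤ), IsZeroAtImInfty (F ∣[k] δ)) :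
    ∃ G : CuspForm (Gamma0 N) k, (G : ℍ → ℂ) = F := by
  refine ⟨{ toFun := F
            slash_action_eq' := ?_
            holo' := hF
            zero_at_cusps' := ?_ }, rfl⟩
  · intro γ hγ
    obtain ⟨γ₀, hγ₀, rfl⟩ := Subgroup.mem_map.mp hγ
    exact hinv γ₀ hγ₀
  · intro cusp hcusp
    rw [Subgroup.IsArithmetic.isCusp_iff_isCusp_SL2Z] at hcusp
    rw [OnePoint.isZeroAt_iff_forall_SL2Z hcusp]
    intro δ _
    exact hzero δ

/-- packaging a function as a cusp form on `Γ₁(N)`. -/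
theorem dsb_mk_cuspForm_Gamma1 (k : ℤ) (F : ℍ → ℂ) (hF : MDiff F)
    (hinv : ∀ γ : SL(2, ℤ), γ ∈ Gamma1 N → F ∣[k] γ = F)
    (hzero : ∀ δ : SL(2, ℤ), IsZeroAtImInfty (F ∣[k] δ)) :
    ∃ G : CuspForm (Gamma1 N) k, (G : ℍ → ℂ) = F := by
  refine ⟨{ toFun := F
            slash_action_eq' := ?_
            holo' := hF
            zero_at_cusps' := ?_ }, rfl⟩
  · intro γ hγ
    obtain ⟨γ₀, hγ₀, rfl⟩ := Subgroup.mem_map.mp hγ
    exact hinv γ₀ hγ₀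
  · intro cusp hcusp
    rw [Subgroup.IsArithmetic.isCusp_iff_isCusp_SL2Z] at hcusp
    rw [OnePoint.isZeroAt_iff_forall_SL2Z hcusp]
    intro δ _
    exact hzero δ

/-! ### character bookkeeping -/

theorem dsb_inv_neg_one (χ : DirichletCharacter ℂ N) (hχ : χ (-1) = -1) : χ⁻¹ (-1) = -1 := by
  rw [MulChar.inv_apply_eq_inv', hχ]
  norm_num

theorem dsb_chi_mul_inv (χ : DirichletCharacter ℂ N) {u : ZMod N} (hu : IsUnit u) :
    χ u * χ⁻¹ u = 1 := by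
  rw [MulChar.inv_apply_eq_inv']
  have : χ u ≠ 0 := MulChar.apply_ne_zero_iff.mpr hu
  exact mul_inv_cancel₀ this

theorem dsb_chi_pow_orderOf (χ : DirichletCharacter ℂ N) {u : ZMod N} (hu : IsUnit u) :
    χ u ^ orderOf χ = 1 := by
  have h := pow_orderOf_eq_one χ
  have h2 : (χ ^ orderOf χ) u = χ u ^ orderOf χ := by
    obtain ⟨v, rfl⟩ := hu
    exact MulChar.pow_apply_coe χ _ v
  rw [← h2, h, MulChar.one_apply hu]

/-! ### the products `g · C` and `g ^ m` as cusp forms on `Γ₀(N)` -/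

section products

variable (χ : DirichletCharacter ℂ N) (g : CuspForm (Gamma1 N) 1)

theorem dsb_zero_slash (δ : SL(2, ℤ)) : IsZeroAtImInfty ((g : ℍ → ℂ) ∣[(1 : ℤ)] δ) :=
  CuspFormClass.zero_at_infty_slash g δ

/-- `B = g · dsb_eis χ⁻¹` is a cusp form of weight `4` on `Γ₀(N)`. -/
theorem dsb_exists_B
    (hg : ∀ γ : SL(2, ℤ), γ ∈ Gamma0 N →
      (g : ℍ → ℂ) ∣[(1 : ℤ)] γ = χ (((γ 1 1 : ℤ)) : ZMod N) • (g : ℍ → ℂ)) :
    ∃ B : CuspForm (Gamma0 N) 4, (B : ℍ → ℂ) = (g : ℍ → ℂ) * dsb_eis χ⁻¹ := by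
  refine dsb_mk_cuspForm_Gamma0 4 _ ((CuspFormClass.holo g).mul (dsb_eis_mdiff χ⁻¹)) ?_ ?_
  · intro γ hγ
    have h := ModularForm.mul_slash_SL2 1 3 γ (g : ℍ → ℂ) (dsb_eis χ⁻¹)
    have e : ((1 : ℤ) + 3) = 4 := by norm_num
    rw [e] at h
    rw [h, hg γ hγ, dsb_eis_slash χ⁻¹ γ hγ]
    ext z
    simp only [Pi.mul_apply, Pi.smul_apply, smul_eq_mul]
    have hu := dsb_chi_mul_inv χ (ds0_d_isUnit hγ)
    unfold ds0_d at hu
    linear_combination ((g : ℍ → ℂ) z * dsb_eis χ⁻¹ z) * hu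
  · intro δ
    have h := ModularForm.mul_slash_SL2 1 3 δ (g : ℍ → ℂ) (dsb_eis χ⁻¹)
    have e : ((1 : ℤ) + 3) = 4 := by norm_num
    rw [e] at h
    rw [h]
    exact (dsb_zero_slash g δ).mul_boundedAtFilter (dsb_eis_slash_bdd χ⁻¹ δ)

/-- `F = g ^ m`, `m = orderOf χ`, is a cusp form of weight `m` on `Γ₀(N)`. -/
theorem dsb_exists_F
    (hg : ∀ γ : SL(2, ℤ), γ ∈ Gamma0 N →
      (g : ℍ → ℂ) ∣[(1 : ℤ)] γ = χ (((γ 1 1 : ℤ)) : ZMod N) • (g : ℍ → ℂ)) :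
    ∃ F : CuspForm (Gamma0 N) (orderOf χ : ℤ), (F : ℍ → ℂ) = (g : ℍ → ℂ) ^ orderOf χ := by
  have hm : 0 < orderOf χ := orderOf_pos χ
  have hpow : ∀ δ : SL(2, ℤ), ((g : ℍ → ℂ) ^ orderOf χ) ∣[(orderOf χ : ℤ)] δ =
      ((g : ℍ → ℂ) ∣[(1 : ℤ)] δ) ^ orderOf χ := by
    intro δ
    have := Asm.pow_slash_SL2 1 (orderOf χ) δ (g : ℍ → ℂ)
    rwa [one_mul] at this
  refine dsb_mk_cuspForm_Gamma0 _ _ ((CuspFormClass.holo g).pow _) ?_ ?_
  · intro γ hγ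
    rw [hpow, hg γ hγ]
    ext z
    simp only [Pi.pow_apply, Pi.smul_apply, smul_eq_mul, mul_pow]
    have hu := dsb_chi_pow_orderOf χ (ds0_d_isUnit hγ)
    unfold ds0_d at hu
    rw [hu, one_mul]
  · intro δ
    rw [hpow]
    have h0 := dsb_zero_slash g δ
    have : IsZeroAtImInfty (((g : ℍ → ℂ) ∣[(1 : ℤ)] δ) ^ (orderOf χ - 1 + 1)) := by
      rw [pow_succ]
      exact (Fermat.Agent.JT3.twe_isBoundedAtImInfty_pow h0.boundedAtFilter _).mul_zeroAtFilter h0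
    rwa [Nat.sub_add_cancel hm] at this

end products

/-! ### the conjugation theorem -/

theorem dsb_isQFun_eis (χ : DirichletCharacter ℂ N) (hχ : χ (-1) = -1) : IsQFun (dsb_eis χ) where
  mdiff := dsb_eis_mdiff χ
  periodic := dsb_eis_periodic χ hχ
  bdd := dsb_eis_bdd χ

/-- **[B3]** conjugation of weight-one cusp forms with (odd) nebentypus. -/
theorem dsb_conj_neben (χ : DirichletCharacter ℂ N) (hχ : χ (-1) = -1) (σ : ℂ →+* ℂ)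
    (g : CuspForm (Gamma1 N) 1)
    (hg : ∀ γ : SL(2, ℤ), γ ∈ Gamma0 N →
      (g : ℍ → ℂ) ∣[(1 : ℤ)] γ = χ (((γ 1 1 : ℤ)) : ZMod N) • (g : ℍ → ℂ)) :
    ∃ g' : CuspForm (Gamma1 N) 1, (∀ n, qCoeff g' n = σ (qCoeff g n)) ∧
      ∀ γ : SL(2, ℤ), γ ∈ Gamma0 N →
        (g' : ℍ → ℂ) ∣[(1 : ℤ)] γ = σ (χ (((γ 1 1 : ℤ)) : ZMod N)) • (g' : ℍ → ℂ) := by
  classical
  set m := orderOf χ with hm_def
  have hm : 0 < m := orderOf_pos χ
  have hχi : χ⁻¹ (-1) = -1 := dsb_inv_neg_one χ hχ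
  set χ' : DirichletCharacter ℂ N := χ⁻¹.ringHomComp σ with hχ'_def
  have hχ' : χ' (-1) = -1 := by
    show σ (χ⁻¹ (-1)) = -1
    rw [hχi, map_neg, map_one]
  obtain ⟨B, hB⟩ := dsb_exists_B χ g hg
  obtain ⟨F, hF⟩ := dsb_exists_F χ g hg
  obtain ⟨B', hB'⟩ := dsb_conj_Gamma0 N 4 σ B
  obtain ⟨F', hF'⟩ := dsb_conj_Gamma0 N (m : ℤ) σ F
  -- the data of the engine
  set C : ℍ → ℂ := dsb_eis χ⁻¹ with hC_def
  set C' : ℍ → ℂ := dsb_eis χ' with hC'_def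
  have hCQ : IsQFun C := dsb_isQFun_eis χ⁻¹ hχi
  have hC'Q : IsQFun C' := dsb_isQFun_eis χ' hχ'
  have hgQ : IsQFun (g : ℍ → ℂ) := dsb_isQFun_Gamma1 g
  have hBQ : IsQFun (B : ℍ → ℂ) := isQFun_cuspForm N B
  have hB'Q : IsQFun (B' : ℍ → ℂ) := isQFun_cuspForm N B'
  have hFQ : IsQFun (F : ℍ → ℂ) := isQFun_cuspForm N F
  have hF'Q : IsQFun (F' : ℍ → ℂ) := isQFun_cuspForm N F'
  let c : Fin m → ℍ → ℂ := fun r => if (r : ℕ) = 0 then -(F : ℍ → ℂ) else 0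
  let c' : Fin m → ℍ → ℂ := fun r => if (r : ℕ) = 0 then -(F' : ℍ → ℂ) else 0
  have hcQ : ∀ r, IsQFun (c r) := by
    intro r
    simp only [c]
    split_ifs
    · exact hFQ.neg
    · exact IsQFun.zero
  have hc'Q : ∀ r, IsQFun (c' r) := by
    intro r
    simp only [c']
    split_ifs
    · exact hF'Q.neg
    · exact IsQFun.zero
  have hBσ : IsConj σ (B : ℍ → ℂ) (B' : ℍ → ℂ) := hB'
  have hFσ : IsConj σ (F : ℍ → ℂ) (F' : ℍ → ℂ) := hF'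
  have hCσ : IsConj σ C C' := dsb_eis_qExpansion_map χ⁻¹ hχi σ
  have hcσ : ∀ r, IsConj σ (c r) (c' r) := by
    intro r
    simp only [c, c']
    split_ifs
    · exact IsConj.neg hFQ hF'Q hFσ
    · exact IsConj.zero
  have hC0 : C ≠ 0 := dsb_eis_ne_zero χ⁻¹ hχi
  have hfC : (g : ℍ → ℂ) * C = (B : ℍ → ℂ) := hB.symm
  have hsum : ∀ (G : ℍ → ℂ) (d : Fin m → ℍ → ℂ) (D : ℍ → ℂ),
      (∀ r : Fin m, d r = if (r : ℕ) = 0 then -D else 0) →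
      ∑ r : Fin m, d r * G ^ (r : ℕ) = -D := by
    intro G d D hd
    rw [Finset.sum_eq_single (⟨0, hm⟩ : Fin m)]
    · rw [hd]
      simp
    · intro r _ hr
      have : (r : ℕ) ≠ 0 := fun h0 => hr (Fin.ext h0)
      rw [hd, if_neg this, zero_mul]
    · intro h
      exact absurd (Finset.mem_univ _) h
  have hrel : (g : ℍ → ℂ) ^ m + ∑ r : Fin m, c r * (g : ℍ → ℂ) ^ (r : ℕ) = 0 := by
    rw [hsum (g : ℍ → ℂ) c (F : ℍ → ℂ) (fun r => rfl), hF]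
    exact add_neg_cancel _
  obtain ⟨g', hg'Q, hg'σ, hg'C, hg'rel⟩ := exists_conj_of_div σ (g : ℍ → ℂ) (B : ℍ → ℂ) C
    (B' : ℍ → ℂ) C' c c' hgQ hBQ hCQ hcQ hB'Q hC'Q hc'Q hBσ hCσ hcσ hC0 hfC hrel
  have hg'pow : g' ^ m = (F' : ℍ → ℂ) := by
    rw [hsum g' c' (F' : ℍ → ℂ) (fun r => rfl)] at hg'rel
    exact add_neg_eq_zero.mp hg'rel
  have hC'0 : C' ≠ 0 := dsb_eis_ne_zero χ' hχ'
  -- transformation under `Γ₀(N)`
  have hB'inv : ∀ γ : SL(2, ℤ), γ ∈ Gamma0 N → (B' : ℍ → ℂ) ∣[(4 : ℤ)] γ = (B' : ℍ → ℂ) :=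
    fun γ hγ => SlashInvariantForm.slash_action_eqn B' _ (Subgroup.mem_map_of_mem _ hγ)
  have hneb : ∀ γ : SL(2, ℤ), γ ∈ Gamma0 N →
      g' ∣[(1 : ℤ)] γ = σ (χ (((γ 1 1 : ℤ)) : ZMod N)) • g' := by
    intro γ hγ
    have h1 := ModularForm.mul_slash_SL2 1 3 γ g' C'
    have e : ((1 : ℤ) + 3) = 4 := by norm_num
    rw [e, hg'C, hB'inv γ hγ, ← hg'C, dsb_eis_slash χ' γ hγ] at h1
    -- h1 : g' * C' = (g' ∣[1] γ) * (χ' d • C')
    have hu : IsUnit (((γ 1 1 : ℤ)) : ZMod N) := ds0_d_isUnit hγ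
    have hχd : χ' (((γ 1 1 : ℤ)) : ZMod N) * σ (χ (((γ 1 1 : ℤ)) : ZMod N)) = 1 := by
      show σ (χ⁻¹ _) * σ (χ _) = 1
      rw [← map_mul, mul_comm, dsb_chi_mul_inv χ hu, map_one]
    have hmd : MDiff (g' ∣[(1 : ℤ)] γ) := hg'Q.mdiff.slash 1 γ
    have h2 : (g' ∣[(1 : ℤ)] γ - σ (χ (((γ 1 1 : ℤ)) : ZMod N)) • g') * C' = 0 := by
      ext z
      have h1z := congrFun h1 z
      simp only [Pi.mul_apply, Pi.smul_apply, smul_eq_mul] at h1z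
      simp only [Pi.mul_apply, Pi.sub_apply, Pi.smul_apply, smul_eq_mul, Pi.zero_apply]
      linear_combination (-(σ (χ (((γ 1 1 : ℤ)) : ZMod N)))) * h1z -
        ((g' ∣[(1 : ℤ)] γ) z * C' z) * hχd
    have h3 := (UpperHalfPlane.mul_eq_zero_iff (hmd.sub (hg'Q.mdiff.const_smul _))
      hC'Q.mdiff).mp h2
    exact sub_eq_zero.mp (h3.resolve_right hC'0)
  -- the cusp form
  have hinv1 : ∀ γ : SL(2, ℤ), γ ∈ Gamma1 N → g' ∣[(1 : ℤ)] γ = g' := by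
    intro γ hγ
    obtain ⟨hγ0, hd⟩ := ds0_mem_Gamma1_iff.mp hγ
    rw [hneb γ hγ0]
    unfold ds0_d at hd
    rw [hd, map_one, map_one, one_smul]
  have hzero : ∀ δ : SL(2, ℤ), IsZeroAtImInfty (g' ∣[(1 : ℤ)] δ) := by
    intro δ
    have hp : (g' ∣[(1 : ℤ)] δ) ^ m = (F' : ℍ → ℂ) ∣[(m : ℤ)] δ := by
      have := Asm.pow_slash_SL2 1 m δ g'
      rw [one_mul] at this
      rw [← this, hg'pow]
    have hF'0 : IsZeroAtImInfty ((F' : ℍ → ℂ) ∣[(m : ℤ)] δ) :=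
      CuspFormClass.zero_at_infty_slash F' δ
    rw [← hp] at hF'0
    -- `h ^ m → 0` implies `h → 0`
    have hn : Tendsto (fun z => ‖(g' ∣[(1 : ℤ)] δ) z‖ ^ m) atImInfty (𝓝 0) := by
      have := tendsto_zero_iff_norm_tendsto_zero.mp hF'0
      simpa [norm_pow] using this
    have hroot : Tendsto (fun z => (‖(g' ∣[(1 : ℤ)] δ) z‖ ^ m) ^ ((m : ℝ)⁻¹)) atImInfty
        (𝓝 (0 ^ ((m : ℝ)⁻¹))) :=
      hn.rpow_const (Or.inr (by positivity))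
    rw [Real.zero_rpow (by positivity)] at hroot
    refine tendsto_zero_iff_norm_tendsto_zero.mpr (hroot.congr fun z => ?_)
    rw [← Real.rpow_natCast, ← Real.rpow_mul (norm_nonneg _), mul_inv_cancel₀ (by positivity),
      Real.rpow_one]
  obtain ⟨G, hG⟩ := dsb_mk_cuspForm_Gamma1 1 g' hg'Q.mdiff hinv1 hzero
  refine ⟨G, ?_, ?_⟩
  · rw [hG]
    exact (isConj_iff_qCoeff σ (g : ℍ → ℂ) g').mp hg'σ
  · rw [hG]
    exact hneb

end Fermat.Agent.DS
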