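import Mathlib
import Fermat.Agent.DS.Seams
import Fermat.Agent.DS.Neben.Nebentypus
import Fermat.Agent.DS.Rankin.Main
import Fermat.Agent.DS.Conj.Neben
import Fermat.Agent.DS.Conj.IntStructK
import Fermat.Agent.DS.Conj.AutC

/-!
# DS-B, leaf [B7]: the seams `ds_SeamBconjW` and `ds_SeamBint`

* `dsb_conj_W1` : for `ds_W1 N ε f` and `σ : ℂ →+* ℂ` there is `f' ∈ S₁(Γ₁(N))` with
  `ds_W1 N (σ ∘ ε) f'` and `a_n(f') = σ(a_n(f))` for ALL `n`;
* `dsb_seamBconjW : ds_SeamBconjW` (with `N' = N`);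
* `dsb_coeff_lattice` : all `q`-coefficients of `f` lie in one finitely generated `ℤ`-submodule of
  `ℂ` (no algebraicity of the `a_n`, `(n, N) > 1`, is claimed or needed): `B = f · E₃(ε⁻¹)` lies in
  `S₄(Γ₀(N)) = ℂ ⊗ (forms with integral coefficients)`, and `E₃(ε⁻¹) = q + …` has coefficients in
  `ℤ[ε]`;
* `dsb_ap_integral` : the `a_p`, `p ∤ N`, are algebraic integers (the `ℤ[ε]`-module generated by
  the `a_n` is finitely generated and stable under the `a_p` by the Hecke relations);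
* `dsb_seamBint : ds_SeamBint` : + number field + Rankin bound for all conjugates (`N' = N`).
-/

set_option autoImplicit false

open UpperHalfPlane hiding I
open ModularForm CongruenceSubgroup ModularFormClass Filter Topology Complex Function
open scoped MatrixGroups Manifold Real

namespace Fermat.Agent.DS

open Fermat.Agent.S23 Fermat.Agent.S23.QF Fermat.Agent.S49


/-- (A) the recursion: if `b = a * h` (Cauchy product), `h 0 = 0`, `h 1 = 1`, the `h j` lie in
the subalgebra `R` and the `b n` in the `ℤ`-submodule `Λ`, then all `a m` lie in `R · Λ`. -/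
theorem dsb_coeff_mem_of_mul (R : Subalgebra ℤ ℂ) (Λ : Submodule ℤ ℂ) (a h b : ℕ → ℂ)
    (h0 : h 0 = 0) (h1 : h 1 = 1) (hR : ∀ j, h j ∈ R)
    (hb : ∀ n, b n = ∑ p ∈ Finset.HasAntidiagonal.antidiagonal n, a p.1 * h p.2) (hbΛ : ∀ n, b n ∈ Λ) :
    ∀ m, a m ∈ Subalgebra.toSubmodule R * Λ := by
  set M : Submodule ℤ ℂ := Subalgebra.toSubmodule R * Λ with hM
  have hΛM : ∀ x ∈ Λ, x ∈ M := by
    intro x hx
    have : (1 : ℂ) * x ∈ M := Submodule.mul_mem_mul (show (1 : ℂ) ∈ Subalgebra.toSubmodule R from one_mem R) hx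
    rwa [one_mul] at this
  have hRM : ∀ r ∈ R, ∀ y ∈ M, y * r ∈ M := by
    intro r hr y hy
    have h2 : r * y ∈ Subalgebra.toSubmodule R * M :=
      Submodule.mul_mem_mul (show r ∈ Subalgebra.toSubmodule R from hr) hy
    rw [hM, ← mul_assoc, (Subalgebra.isIdempotentElem_toSubmodule R).eq, ← hM] at h2
    rwa [mul_comm]
  intro m
  induction m using Nat.strong_induction_on with
  | _ m ih =>
    have hbm := hb (m + 1)
    rw [Finset.Nat.sum_antidiagonal_eq_sum_range_succ_mk, Finset.sum_range_succ,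
      Finset.sum_range_succ] at hbm
    simp only [Nat.sub_self, h0, mul_zero, add_zero] at hbm
    have e1 : m + 1 - m = 1 := by omega
    rw [e1, h1, mul_one] at hbm
    have : a m = b (m + 1) - ∑ x ∈ Finset.range m, a x * h (m + 1 - x) := by
      rw [hbm]; ring
    rw [this]
    refine M.sub_mem (hΛM _ (hbΛ _)) (M.sum_mem fun x hx => ?_)
    exact hRM _ (hR _) _ (ih x (Finset.mem_range.mp hx))


/-- (B) the Hecke-stable lattice: if all `a n` lie in a finitely generated `ℤ`-module `M` stable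
under the subalgebra `R`, `a 1 = 1`, and the `a n` satisfy Hecke relations at the `p ∈ X` with
"characters" `e p ∈ R`, then there is a finitely generated `ℤ`-submodule `S ∋ 1` of `ℂ` stable
under multiplication by all `a p`, `p ∈ X`. -/
theorem dsb_exists_stable_lattice (R : Subalgebra ℤ ℂ) (M : Submodule ℤ ℂ) (hM : M.FG)
    (a e : ℕ → ℂ) (ha1 : a 1 = 1) (haM : ∀ n, a n ∈ M) (hRM : ∀ r ∈ R, ∀ y ∈ M, r * y ∈ M)
    (X : Set ℕ) (he : ∀ p ∈ X, e p ∈ R)
    (hecke : ∀ p ∈ X, ∀ n, a (p * n) + e p * (if p ∣ n then a (n / p) else 0) = a p * a n) :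
    ∃ S : Submodule ℤ ℂ, S.FG ∧ (1 : ℂ) ∈ S ∧ ∀ p ∈ X, ∀ s ∈ S, a p * s ∈ S := by
  set S : Submodule ℤ ℂ := Subalgebra.toSubmodule R * Submodule.span ℤ (Set.range a) with hS
  have hraS : ∀ r ∈ R, ∀ n, r * a n ∈ S := fun r hr n =>
    Submodule.mul_mem_mul (show r ∈ Subalgebra.toSubmodule R from hr)
      (Submodule.subset_span ⟨n, rfl⟩)
  have hSM : S ≤ M := by
    rw [hS, Submodule.mul_le]
    intro r hr x hx
    refine hRM r hr x ?_
    exact (Submodule.span_le.mpr (by rintro _ ⟨n, rfl⟩; exact haM n)) hx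
  refine ⟨S, Submodule.FG.of_le hM hSM, ?_, ?_⟩
  · have := hraS 1 (one_mem R) 1
    rwa [ha1, one_mul] at this
  · intro p hp s hs
    -- the set of `s` with `a p * s ∈ S` is a submodule containing the generators
    have hle : S ≤ Submodule.comap (LinearMap.mulLeft ℤ (a p)) S := by
      rw [hS, Submodule.mul_le]
      intro r hr x hx
      rw [Submodule.mem_comap, LinearMap.mulLeft_apply]
      induction hx using Submodule.span_induction with
      | mem x hx =>
        obtain ⟨n, rfl⟩ := hx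
        have h1 := hecke p hp n
        have : a p * (r * a n) = r * a (p * n) +
            (r * e p) * (if p ∣ n then a (n / p) else 0) := by
          rw [← mul_assoc (a p), mul_comm (a p) r, mul_assoc r, ← h1]; ring
        rw [this]
        refine S.add_mem (hraS r hr _) ?_
        split_ifs
        · exact hraS _ (mul_mem hr (he p hp)) _
        · rw [mul_zero]; exact S.zero_mem
      | zero => simp
      | add x y _ _ hx hy =>
        rw [mul_add, mul_add]
        exact S.add_mem hx hy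
      | smul c x _ hx =>
        rw [mul_smul_comm, mul_smul_comm]
        exact S.smul_mem c hx
    exact hle hs


/-- an element stabilising a finitely generated `ℤ`-submodule `S ∋ 1` of `ℂ` is an algebraic
integer. -/
theorem dsb_integral_of_stable (S : Submodule ℤ ℂ) (hS : S.FG) (h1 : (1 : ℂ) ∈ S) (x : ℂ)
    (hx : ∀ s ∈ S, x * s ∈ S) : IsIntegral ℤ x := by
  refine isIntegral_of_smul_mem_submodule S ?_ hS x (fun n hn => ?_)
  · intro h
    rw [h] at h1
    exact one_ne_zero ((Submodule.mem_bot ℤ).mp h1)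
  · simpa [smul_eq_mul] using hx n hn

/-- a set of complex numbers stabilising a finitely generated `ℤ`-submodule `S ∋ 1` of `ℂ`
generates a number field. -/
theorem dsb_finiteDimensional_adjoin_of_stable (S : Submodule ℤ ℂ) (hS : S.FG) (h1 : (1 : ℂ) ∈ S)
    (T : Set ℂ) (hT : ∀ x ∈ T, ∀ s ∈ S, x * s ∈ S) :
    FiniteDimensional ℚ (IntermediateField.adjoin ℚ T) := by
  have halg : ∀ x ∈ T, IsAlgebraic ℚ x := fun x hx =>
    ((dsb_integral_of_stable S hS h1 x (hT x hx)).tower_top (A := ℚ)).isAlgebraic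
  have hEq := IntermediateField.adjoin_toSubalgebra_of_isAlgebraic halg
  -- the stabiliser monoid
  let P : Submonoid ℂ :=
    { carrier := {x | ∀ s ∈ S, x * s ∈ S}
      one_mem' := fun s hs => by rwa [one_mul]
      mul_mem' := fun {x y} hx hy s hs => by
        rw [mul_assoc]
        exact hx _ (hy s hs) }
  have hcl : ∀ x ∈ Submonoid.closure T, x ∈ S := by
    intro x hx
    have hTP : T ⊆ (P : Set ℂ) := fun t ht => hT t ht
    have hxP : x ∈ P := (Submonoid.closure_le.mpr hTP) hx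
    have := hxP 1 h1
    rwa [mul_one] at this
  obtain ⟨G, hG⟩ := hS
  have hfg : (Submodule.span ℚ (S : Set ℂ)).FG := by
    refine ⟨G, ?_⟩
    rw [← hG, Submodule.span_span_of_tower]
  have hle : Subalgebra.toSubmodule (Algebra.adjoin ℚ T) ≤ Submodule.span ℚ (S : Set ℂ) := by
    rw [Algebra.adjoin_eq_span]
    exact Submodule.span_mono (fun x hx => hcl x hx)
  have hfg' : (Subalgebra.toSubmodule (IntermediateField.adjoin ℚ T).toSubalgebra).FG := by
    rw [hEq]
    exact Submodule.FG.of_le hfg hle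
  exact (Module.Finite.iff_fg
    (N := Subalgebra.toSubmodule (IntermediateField.adjoin ℚ T).toSubalgebra)).mpr hfg'

section modular

variable {N : ℕ} [NeZero N]

/-- nebentypus (in the `SL(2,ℤ)`-slash form) and oddness of `ε` from `ds_W1`. -/
theorem dsb_neben_of_W1 (ε : DirichletCharacter ℂ N) (f : CuspForm (Gamma1 N) 1)
    (hW : ds_W1 N ε f) :
    (∀ γ : SL(2, ℤ), γ ∈ Gamma0 N →
      (f : ℍ → ℂ) ∣[(1 : ℤ)] γ = ε (((γ 1 1 : ℤ)) : ZMod N) • (f : ℍ → ℂ)) ∧ ε (-1) = -1 := by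
  refine ⟨fun γ hγ => ?_, ds0_eps_neg_one ε f hW.one hW.hecke⟩
  have h := ds0_nebentypus ε f hW.hecke γ hγ
  rw [ModularForm.SL_slash]
  exact h

/-- **conjugation with `ds_W1`**, all coefficients, same level. -/
theorem dsb_conj_W1 (ε : DirichletCharacter ℂ N) (f : CuspForm (Gamma1 N) 1)
    (hW : ds_W1 N ε f) (σ : ℂ →+* ℂ) :
    ∃ f' : CuspForm (Gamma1 N) 1, ds_W1 N (ε.ringHomComp σ) f' ∧
      ∀ n, qCoeff f' n = σ (qCoeff f n) := by
  obtain ⟨hneb, hodd⟩ := dsb_neben_of_W1 ε f hW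
  obtain ⟨f', hf', -⟩ := dsb_conj_neben ε hodd σ f hneb
  refine ⟨f', ⟨?_, ?_⟩, hf'⟩
  · rw [hf', hW.one, map_one]
  · intro p hp hpN n
    have h := congrArg σ (hW.hecke p hp hpN n)
    rw [map_add, map_mul, map_mul, apply_ite σ, map_zero] at h
    simp only [hf']
    by_cases hpn : p ∣ n
    · rw [if_pos hpn] at h ⊢
      exact h
    · rw [if_neg hpn] at h ⊢
      exact h

/-- **DS-B, conjugation seam** (`N' = N`, `ε' = σ ∘ ε`). -/
theorem dsb_seamBconjW : ds_SeamBconjW := by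
  intro N _ ε f hW σ
  obtain ⟨f', hW', hf'⟩ := dsb_conj_W1 ε f hW σ
  exact ⟨N, inferInstance, ε.ringHomComp σ, f', dvd_rfl, hW', fun p _ _ => hf' p⟩

/-- every cusp form on `Γ₀(N)` has its `q`-coefficients in a finitely generated `ℤ`-submodule of
`ℂ` (from the integral structure `dsb_intStruct_Gamma0`). -/
theorem dsb_exists_lattice_Gamma0 (k : ℤ) (B : CuspForm (Gamma0 N) k) :
    ∃ Λ : Submodule ℤ ℂ, Λ.FG ∧ ∀ n, qCoeff B n ∈ Λ := by
  classical
  have htop : Submodule.span ℂ ((CuspForm.intLattice N k :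
      Submodule ℤ (CuspForm (Gamma0 N) k)) : Set (CuspForm (Gamma0 N) k)) = ⊤ :=
    dsb_intStruct_Gamma0 N k
  have hB : B ∈ Submodule.span ℂ ((CuspForm.intLattice N k :
      Submodule ℤ (CuspForm (Gamma0 N) k)) : Set (CuspForm (Gamma0 N) k)) := by
    rw [htop]; trivial
  obtain ⟨c, t, hts, -, hsum⟩ := Submodule.mem_span_iff_exists_finset_subset.mp hB
  refine ⟨Submodule.span ℤ ((t.image c : Finset ℂ) : Set ℂ), ⟨t.image c, rfl⟩, fun n => ?_⟩
  have h1 : qCoeff B n = ∑ G ∈ t, c G * qCoeff G n := by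
    have := congrArg (qcLin N k n) hsum
    simp only [map_sum, map_smul, qcLin_apply, smul_eq_mul] at this
    exact this.symm
  rw [h1]
  refine Submodule.sum_mem _ fun G hG => ?_
  obtain ⟨m, hm⟩ := (mem_intLattice_iff' G).mp (hts hG) n
  rw [hm, mul_comm, ← zsmul_eq_mul]
  exact Submodule.smul_mem _ m (Submodule.subset_span (Finset.mem_coe.mpr
    (Finset.mem_image_of_mem c hG)))

end modular
section lattice

variable {N : ℕ} [NeZero N]

/-- the values of a Dirichlet character are algebraic integers. -/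
theorem dsb_chi_isIntegral (χ : DirichletCharacter ℂ N) (u : ZMod N) : IsIntegral ℤ (χ u) := by
  by_cases hu : IsUnit u
  · refine IsIntegral.of_pow (orderOf_pos χ) ?_
    rw [dsb_chi_pow_orderOf χ hu]
    exact isIntegral_one
  · rw [MulChar.map_nonunit χ hu]
    exact isIntegral_zero

/-- `ℤ[ε]`, a finitely generated `ℤ`-module. -/
def dsb_Zeps (ε : DirichletCharacter ℂ N) : Subalgebra ℤ ℂ :=
  Algebra.adjoin ℤ (Set.range ε)

theorem dsb_Zeps_fg (ε : DirichletCharacter ℂ N) :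
    (Subalgebra.toSubmodule (dsb_Zeps ε)).FG :=
  fg_adjoin_of_finite (Set.finite_range _) (by rintro _ ⟨u, rfl⟩; exact dsb_chi_isIntegral ε u)

omit [NeZero N] in
theorem dsb_eps_mem_Zeps (ε : DirichletCharacter ℂ N) (u : ZMod N) : ε u ∈ dsb_Zeps ε :=
  Algebra.subset_adjoin ⟨u, rfl⟩

omit [NeZero N] in
theorem dsb_ecoef_inv_mem_Zeps (ε : DirichletCharacter ℂ N) (e : ℕ) :
    dsb_ecoef ε⁻¹ e ∈ dsb_Zeps ε := by
  unfold dsb_ecoef
  refine Subalgebra.sum_mem _ fun x _ => ?_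
  refine mul_mem ?_ (pow_mem (natCast_mem _ _) 2)
  rw [MulChar.inv_apply]
  exact dsb_eps_mem_Zeps ε _

omit [NeZero N] in
theorem dsb_ecoef_zero (χ : DirichletCharacter ℂ N) : dsb_ecoef χ 0 = 0 := by
  unfold dsb_ecoef
  simp

/-- **all `q`-coefficients of `f` lie in one finitely generated `ℤ`-module**, stable under
`ℤ[ε]`. -/
theorem dsb_coeff_lattice (ε : DirichletCharacter ℂ N) (f : CuspForm (Gamma1 N) 1)
    (hW : ds_W1 N ε f) :
    ∃ M : Submodule ℤ ℂ, M.FG ∧ (∀ r ∈ dsb_Zeps ε, ∀ y ∈ M, r * y ∈ M) ∧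
      ∀ n, qCoeff f n ∈ M := by
  obtain ⟨hneb, hodd⟩ := dsb_neben_of_W1 ε f hW
  have hoddi : ε⁻¹ (-1) = -1 := dsb_inv_neg_one ε hodd
  obtain ⟨B, hB⟩ := dsb_exists_B ε f hneb
  obtain ⟨Λ, hΛfg, hΛ⟩ := dsb_exists_lattice_Gamma0 4 B
  refine ⟨Subalgebra.toSubmodule (dsb_Zeps ε) * Λ, (dsb_Zeps_fg ε).mul hΛfg, ?_, ?_⟩
  · intro r hr y hy
    have h2 : r * y ∈ Subalgebra.toSubmodule (dsb_Zeps ε) *
        (Subalgebra.toSubmodule (dsb_Zeps ε) * Λ) :=
      Submodule.mul_mem_mul (show r ∈ Subalgebra.toSubmodule (dsb_Zeps ε) from hr) hy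
    rwa [← mul_assoc, (Subalgebra.isIdempotentElem_toSubmodule (dsb_Zeps ε)).eq] at h2
  · refine dsb_coeff_mem_of_mul (dsb_Zeps ε) Λ (fun n => qCoeff f n) (dsb_ecoef ε⁻¹)
      (fun n => qCoeff B n) (dsb_ecoef_zero _) (dsb_ecoef_one _) (dsb_ecoef_inv_mem_Zeps ε)
      (fun n => ?_) hΛ
    have hmul : qExpansion 1 (B : ℍ → ℂ) =
        qExpansion 1 (f : ℍ → ℂ) * qExpansion 1 (dsb_eis ε⁻¹) := by
      rw [hB]
      exact UpperHalfPlane.qExpansion_mul (dsb_isQFun_Gamma1 f).analyticAt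
        (dsb_isQFun_eis ε⁻¹ hoddi).analyticAt
    show (qExpansion 1 (B : ℍ → ℂ)).coeff n = _
    rw [hmul, PowerSeries.coeff_mul]
    refine Finset.sum_congr rfl fun x _ => ?_
    rw [dsb_eis_qExpansion_coeff ε⁻¹ hoddi]
    rfl

/-- **integrality**: the `a_p`, `p ∤ N`, are algebraic integers, and together they generate a
number field. -/
theorem dsb_ap_integral (ε : DirichletCharacter ℂ N) (f : CuspForm (Gamma1 N) 1)
    (hW : ds_W1 N ε f) :
    (∀ p : ℕ, p.Prime → ¬ p ∣ N → IsIntegral ℤ (qCoeff f p)) ∧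
      FiniteDimensional ℚ (IntermediateField.adjoin ℚ
        {x : ℂ | ∃ p : ℕ, p.Prime ∧ ¬ p ∣ N ∧ x = qCoeff f p}) := by
  obtain ⟨M, hMfg, hRM, hM⟩ := dsb_coeff_lattice ε f hW
  obtain ⟨S, hSfg, h1S, hS⟩ := dsb_exists_stable_lattice (dsb_Zeps ε) M hMfg
    (fun n => qCoeff f n) (fun p => ε (p : ZMod N)) hW.one hM hRM
    {p : ℕ | p.Prime ∧ ¬ p ∣ N} (fun p _ => dsb_eps_mem_Zeps ε _)
    (fun p hp n => hW.hecke p hp.1 hp.2 n)
  refine ⟨fun p hp hpN => dsb_integral_of_stable S hSfg h1S _ (hS p ⟨hp, hpN⟩), ?_⟩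
  refine dsb_finiteDimensional_adjoin_of_stable S hSfg h1S _ ?_
  rintro x ⟨p, hp, hpN, rfl⟩
  exact hS p ⟨hp, hpN⟩

end lattice

/-- **DS-B, main seam** (`φ`-vocabulary form): integrality, number field `K ⊆ ℂ`, and the Rankin
bound for every conjugate system (with `N' = N`). -/
theorem dsb_seamBint : ds_SeamBint := by
  classical
  intro N _ ε f hW
  obtain ⟨hint, hfin⟩ := dsb_ap_integral ε f hW
  refine ⟨hint, ?_⟩
  set T : Set ℂ := {x : ℂ | ∃ p : ℕ, p.Prime ∧ ¬ p ∣ N ∧ x = qCoeff f p} with hT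
  set K : IntermediateField ℚ ℂ := IntermediateField.adjoin ℚ T with hK
  let α : ℕ → K := fun p =>
    if h : p.Prime ∧ ¬ p ∣ N then
      ⟨qCoeff f p, IntermediateField.subset_adjoin ℚ T ⟨p, h.1, h.2, rfl⟩⟩
    else 0
  have hα : ∀ p : ℕ, p.Prime → ¬ p ∣ N → ((α p : K) : ℂ) = qCoeff f p := by
    intro p hp hpN
    simp only [α, dif_pos (And.intro hp hpN)]
  refine ⟨K, α, hfin, hα, ?_⟩
  intro τ
  have : FiniteDimensional ℚ K := hfin
  have : Algebra.IsAlgebraic ℚ K := Algebra.IsAlgebraic.of_finite ℚ K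
  obtain ⟨σ, hσ⟩ := dsb_aut_exists_of_embeddings (algebraMap K ℂ) τ
  obtain ⟨f', hW', hf'⟩ := dsb_conj_W1 ε f hW (σ : ℂ →+* ℂ)
  obtain ⟨C, hC⟩ := dsa_main N (ε.ringHomComp (σ : ℂ →+* ℂ)) f' hW'.one hW'.hecke
  refine ⟨N, C, NeZero.pos N, fun s hs hs2 P hP => ?_⟩
  have hb := hC s hs hs2 P hP
  have heq : ∑ p ∈ P, ‖τ (α p)‖ ^ 2 / (p : ℝ) ^ s =
      ∑ p ∈ P, ‖qCoeff f' p‖ ^ 2 / (p : ℝ) ^ s := by
    refine Finset.sum_congr rfl fun p hp => ?_
    obtain ⟨hpp, hpN⟩ := hP p hp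
    have h1 : τ (α p) = qCoeff f' p := by
      rw [hf', ← hσ]
      show σ ((α p : K) : ℂ) = σ (qCoeff f p)
      rw [hα p hpp hpN]
    rw [h1]
  rw [heq]
  exact hb

end Fermat.Agent.DS
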