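/-
Project DS (S48), cell DS-B, leaf [DEPL].  Prefix `dsb_depl_`.

Depletion: for a cusp form `f = ∑ a_n qⁿ` on `Γ₁(N)` (any weight), the series
`f♭ = ∑_{(n,N)=1} a_n qⁿ` is a cusp form on `Γ₁(N²)`:
`f♭(τ) = N⁻¹ ∑_{b mod N} c_N(b) f(τ + b/N)` with the Ramanujan sums `c_N(b)`, and each translate
`f(τ + b/N) = f ∣ [[1, b/N],[0, 1]]` is a cusp form on `Γ₁(N²) ⊆ g⁻¹ Γ₁(N) g`.
In weight one, `f♭` satisfies `ds_W1` at level `N²` with the same `a_p` (`p ∤ N`), and ALL its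
coefficients are polynomials in the `a_p`, `ε(p)` (`p ∤ N`).
-/
import Mathlib
import Fermat.Agent.DS.Defs

set_option autoImplicit false

noncomputable section

open CongruenceSubgroup ModularFormClass UpperHalfPlane Matrix
open scoped MatrixGroups ModularForm Pointwise

namespace Fermat.Agent.DS

/-- restriction of a cusp form to a subgroup. -/
def dsb_depl_restrict {𝒢 ℋ : Subgroup (GL (Fin 2) ℝ)} (h : 𝒢 ≤ ℋ) {k : ℤ} (f : CuspForm ℋ k) :
    CuspForm 𝒢 k where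
  toFun := f
  slash_action_eq' γ hγ := f.slash_action_eq' γ (h hγ)
  holo' := f.holo'
  zero_at_cusps' hc := f.zero_at_cusps' (hc.mono h)

@[simp] theorem dsb_depl_restrict_coe {𝒢 ℋ : Subgroup (GL (Fin 2) ℝ)} (h : 𝒢 ≤ ℋ) {k : ℤ}
    (f : CuspForm ℋ k) : (dsb_depl_restrict h f : ℍ → ℂ) = f := rfl

/-- the slash by `[[1, x],[0, 1]]` is the translate by `x`. -/
theorem dsb_depl_slash_upperRight (k : ℤ) (f : ℍ → ℂ) (x : ℝ) (τ : ℍ) :
    (f ∣[k] GeneralLinearGroup.upperRightHom x) τ = f (x +ᵥ τ) := by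
  have h : GeneralLinearGroup.upperRightHom x • τ = x +ᵥ τ := by
    ext
    simp [σ, num, denom, coe_vadd, UpperHalfPlane.coe_smul, add_comm]
  rw [ModularForm.slash_apply, h]
  simp [σ, denom, GeneralLinearGroup.val_det_apply]

/-- An explicit element of `SL(2,ℤ)`. -/
def dsb_depl_mkSL (a b c d : ℤ) (h : a * d - b * c = 1) : SL(2, ℤ) :=
  ⟨!![a, b; c, d], by rw [Matrix.det_fin_two_of]; exact h⟩

theorem dsb_depl_coe_GL_val (γ : SL(2, ℤ)) :
    ((Matrix.SpecialLinearGroup.mapGL ℝ γ : GL (Fin 2) ℝ) : Matrix (Fin 2) (Fin 2) ℝ) =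
      !![((γ 0 0 : ℤ) : ℝ), ((γ 0 1 : ℤ) : ℝ); ((γ 1 0 : ℤ) : ℝ), ((γ 1 1 : ℤ) : ℝ)] := by
  ext i j
  fin_cases i <;> fin_cases j <;> simp

theorem dsb_depl_sl_det_eq (γ : SL(2, ℤ)) : γ 0 0 * γ 1 1 - γ 0 1 * γ 1 0 = 1 := by
  have := γ.2
  rw [Matrix.det_fin_two] at this
  exact this

/-- Conjugating `Γ₁(N²)` by `[[1, b/N],[0, 1]]` lands in `Γ₁(N)`. -/
theorem dsb_depl_exists_conj (N : ℕ) [NeZero N] (b : ℤ) (γ : SL(2, ℤ)) (hγ : γ ∈ Gamma1 (N * N)) :
    ∃ γ' : SL(2, ℤ), γ' ∈ Gamma1 N ∧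
      Matrix.SpecialLinearGroup.mapGL ℝ γ' * GeneralLinearGroup.upperRightHom ((b : ℝ) / N) =
        GeneralLinearGroup.upperRightHom ((b : ℝ) / N) * Matrix.SpecialLinearGroup.mapGL ℝ γ := by
  rw [Gamma1_mem] at hγ
  obtain ⟨h00, h11, h10⟩ := hγ
  have e1 : ((1 : ℤ) : ZMod (N * N)) = 1 := by simp
  rw [← e1, ZMod.intCast_eq_intCast_iff_dvd_sub] at h00 h11
  rw [ZMod.intCast_zmod_eq_zero_iff_dvd] at h10
  obtain ⟨a₀, ha⟩ := h00
  obtain ⟨d₀, hd⟩ := h11
  obtain ⟨c₀, hc⟩ := h10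
  push_cast at ha hd hc
  have hdet := dsb_depl_sl_det_eq γ
  have hN : (N : ℝ) ≠ 0 := Nat.cast_ne_zero.mpr (NeZero.ne N)
  refine ⟨dsb_depl_mkSL (γ 0 0 + b * N * c₀) (γ 0 1 + b * N * (a₀ - d₀) - b * b * c₀) (γ 1 0)
    (γ 1 1 - b * N * c₀) ?_, ?_, ?_⟩
  · have ha' : γ 0 0 = 1 - N * N * a₀ := by linarith
    have hd' : γ 1 1 = 1 - N * N * d₀ := by linarith
    rw [hc] at hdet ⊢
    rw [ha', hd'] at hdet ⊢
    linear_combination hdet
  · rw [Gamma1_mem]
    have ha'' : ((γ 0 0 : ℤ) : ZMod N) = 1 := by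
      have : γ 0 0 = 1 - N * N * a₀ := by linarith
      rw [this]; push_cast; simp
    have hd'' : ((γ 1 1 : ℤ) : ZMod N) = 1 := by
      have : γ 1 1 = 1 - N * N * d₀ := by linarith
      rw [this]; push_cast; simp
    have hc'' : ((γ 1 0 : ℤ) : ZMod N) = 0 := by
      rw [hc]; push_cast; simp
    refine ⟨?_, ?_, ?_⟩
    · show ((γ 0 0 + b * N * c₀ : ℤ) : ZMod N) = 1
      push_cast
      rw [ha'']
      simp
    · show ((γ 1 1 - b * N * c₀ : ℤ) : ZMod N) = 1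
      push_cast
      rw [hd'']
      simp
    · show ((γ 1 0 : ℤ) : ZMod N) = 0
      exact hc''
  · apply Matrix.GeneralLinearGroup.ext
    intro i j
    rw [Matrix.GeneralLinearGroup.coe_mul, Matrix.GeneralLinearGroup.coe_mul, dsb_depl_coe_GL_val,
      dsb_depl_coe_GL_val]
    have ha' : ((γ 0 0 : ℤ) : ℝ) = 1 - N * N * a₀ := by
      have : γ 0 0 = 1 - N * N * a₀ := by linarith
      rw [this]; push_cast; ring
    have hd' : ((γ 1 1 : ℤ) : ℝ) = 1 - N * N * d₀ := by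
      have : γ 1 1 = 1 - N * N * d₀ := by linarith
      rw [this]; push_cast; ring
    have hc' : ((γ 1 0 : ℤ) : ℝ) = N * N * c₀ := by
      rw [hc]; push_cast; ring
    fin_cases i <;> fin_cases j <;>
      simp [dsb_depl_mkSL, GeneralLinearGroup.upperRightHom_apply, ha', hd', hc'] <;>
      field_simp <;> ring

theorem dsb_depl_le_conj (N : ℕ) [NeZero N] (b : ℤ) :
    ((Gamma1 (N * N) : Subgroup SL(2, ℤ)) : Subgroup (GL (Fin 2) ℝ)) ≤
      ConjAct.toConjAct (GeneralLinearGroup.upperRightHom ((b : ℝ) / N))⁻¹ •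
        ((Gamma1 N : Subgroup SL(2, ℤ)) : Subgroup (GL (Fin 2) ℝ)) := by
  rintro _ ⟨γ, hγ, rfl⟩
  obtain ⟨γ', hγ'1, hγ'⟩ := dsb_depl_exists_conj N b γ hγ
  rw [Subgroup.mem_pointwise_smul_iff_inv_smul_mem, ConjAct.smul_def]
  simp only [map_inv, inv_inv, ConjAct.ofConjAct_toConjAct]
  refine ⟨γ', hγ'1, ?_⟩
  rw [← hγ', mul_assoc, mul_inv_cancel, mul_one]

/-- the translate `τ ↦ f (τ + b/N)` as a cusp form on `Γ₁(N²)`. -/
def dsb_depl_shift (N : ℕ) [NeZero N] (k : ℤ) (f : CuspForm (Gamma1 N) k) (b : ℤ) :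
    CuspForm (Gamma1 (N * N)) k :=
  dsb_depl_restrict (dsb_depl_le_conj N b)
    (CuspForm.translate f (GeneralLinearGroup.upperRightHom ((b : ℝ) / N)))

theorem dsb_depl_shift_apply (N : ℕ) [NeZero N] (k : ℤ) (f : CuspForm (Gamma1 N) k) (b : ℤ)
    (τ : ℍ) : dsb_depl_shift N k f b τ = f (((b : ℝ) / N) +ᵥ τ) :=
  dsb_depl_slash_upperRight k f _ τ

theorem dsb_depl_one_mem (N : ℕ) :
    (1 : ℝ) ∈ (Gamma1 N : Subgroup (GL (Fin 2) ℝ)).strictPeriods := by simp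

theorem dsb_depl_qParam_shift (N : ℕ) [NeZero N] (b : ℤ) (τ : ℍ) :
    Function.Periodic.qParam 1 ((((b : ℝ) / N) +ᵥ τ : ℍ) : ℂ) =
      ZMod.stdAddChar ((b : ℤ) : ZMod N) * Function.Periodic.qParam 1 (τ : ℂ) := by
  rw [ZMod.stdAddChar_coe, Function.Periodic.qParam, Function.Periodic.qParam, ← Complex.exp_add,
    UpperHalfPlane.coe_vadd]
  congr 1
  push_cast
  ring

theorem dsb_depl_shift_hasSum (N : ℕ) [NeZero N] (k : ℤ) (f : CuspForm (Gamma1 N) k) (b : ℤ)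
    (τ : ℍ) :
    HasSum (fun m : ℕ => (qCoeff f m * ZMod.stdAddChar (((b : ℤ) : ZMod N) * (m : ZMod N))) •
      Function.Periodic.qParam 1 (τ : ℂ) ^ m) (dsb_depl_shift N k f b τ) := by
  rw [dsb_depl_shift_apply]
  have h := ModularForm.hasSum_qExpansion f one_pos (dsb_depl_one_mem N) (((b : ℝ) / N) +ᵥ τ)
  convert h using 2 with m
  rw [dsb_depl_qParam_shift, mul_pow, smul_eq_mul, qCoeff, mul_assoc]
  congr 2
  rw [mul_comm, ← nsmul_eq_mul, AddChar.map_nsmul_eq_pow]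

theorem dsb_depl_shift_qCoeff (N : ℕ) [NeZero N] (k : ℤ) (f : CuspForm (Gamma1 N) k) (b : ℤ)
    (m : ℕ) :
    qCoeff (dsb_depl_shift N k f b) m =
      qCoeff f m * ZMod.stdAddChar (((b : ℤ) : ZMod N) * (m : ZMod N)) :=
  (ModularFormClass.qExpansion_coeff_unique one_pos (dsb_depl_one_mem (N * N))
    (dsb_depl_shift_hasSum N k f b) m).symm

/-- Ramanujan-sum weights `c_N(b) = ∑_{a ∈ (ℤ/N)ˣ} e(-ab/N)`. -/
def dsb_depl_c (N : ℕ) [NeZero N] (b : ZMod N) : ℂ :=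
  ∑ a : ZMod N, if IsUnit a then ZMod.stdAddChar (-(a * b)) else 0

theorem dsb_depl_c_sum (N : ℕ) [NeZero N] (m : ZMod N) :
    ∑ b : ZMod N, dsb_depl_c N b * ZMod.stdAddChar (b * m) = if IsUnit m then (N : ℂ) else 0 := by
  classical
  simp only [dsb_depl_c, Finset.sum_mul]
  rw [Finset.sum_comm]
  have key : ∀ a : ZMod N,
      ∑ b : ZMod N, (if IsUnit a then (ZMod.stdAddChar (-(a * b)) : ℂ) else 0) *
        ZMod.stdAddChar (b * m) =
      if IsUnit a then (((if m - a = 0 then Fintype.card (ZMod N) else 0 : ℕ)) : ℂ) else 0 := by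
    intro a
    by_cases ha : IsUnit a
    · simp only [if_pos ha]
      rw [← AddChar.sum_mulShift (m - a) (ZMod.isPrimitive_stdAddChar N)]
      refine Finset.sum_congr rfl fun b _ => ?_
      rw [← AddChar.map_add_eq_mul]
      congr 1
      ring
    · simp [if_neg ha]
  rw [Finset.sum_congr rfl fun a _ => key a, Finset.sum_eq_single m]
  · simp [ZMod.card]
  · intro a _ ham
    have : m - a ≠ 0 := fun h => ham (sub_eq_zero.mp h).symm
    simp [this]
  · intro h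
    exact absurd (Finset.mem_univ m) h

/-- the depleted form `∑_{(n,N)=1} a_n qⁿ`. -/
def dsb_depl_form (N : ℕ) [NeZero N] (k : ℤ) (f : CuspForm (Gamma1 N) k) :
    CuspForm (Gamma1 (N * N)) k :=
  (N : ℂ)⁻¹ • ∑ b : ZMod N, dsb_depl_c N b • dsb_depl_shift N k f ((b.val : ℕ) : ℤ)

theorem dsb_depl_form_apply (N : ℕ) [NeZero N] (k : ℤ) (f : CuspForm (Gamma1 N) k) (τ : ℍ) :
    dsb_depl_form N k f τ =
      (N : ℂ)⁻¹ * ∑ b : ZMod N, dsb_depl_c N b * dsb_depl_shift N k f ((b.val : ℕ) : ℤ) τ := by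
  simp [dsb_depl_form, _root_.smul_apply, _root_.sum_apply]

theorem dsb_depl_form_hasSum (N : ℕ) [NeZero N] (k : ℤ) (f : CuspForm (Gamma1 N) k) (τ : ℍ) :
    HasSum (fun m : ℕ => ((N : ℂ)⁻¹ * ∑ b : ZMod N, dsb_depl_c N b *
        (qCoeff f m * ZMod.stdAddChar (b * (m : ZMod N)))) •
      Function.Periodic.qParam 1 (τ : ℂ) ^ m) (dsb_depl_form N k f τ) := by
  rw [dsb_depl_form_apply]
  have h1 : ∀ b ∈ (Finset.univ : Finset (ZMod N)),
      HasSum (fun m : ℕ => dsb_depl_c N b * ((qCoeff f m * ZMod.stdAddChar (b * (m : ZMod N))) •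
        Function.Periodic.qParam 1 (τ : ℂ) ^ m))
        (dsb_depl_c N b * dsb_depl_shift N k f ((b.val : ℕ) : ℤ) τ) := by
    intro b _
    have h := (dsb_depl_shift_hasSum N k f ((b.val : ℕ) : ℤ) τ).mul_left (dsb_depl_c N b)
    have hb : ((((b.val : ℕ) : ℤ)) : ZMod N) = b := by simp
    rw [hb] at h
    exact h
  have h2 := (hasSum_sum h1).mul_left ((N : ℂ)⁻¹)
  have hfun : (fun m : ℕ => ((N : ℂ)⁻¹ * ∑ b : ZMod N, dsb_depl_c N b *
        (qCoeff f m * ZMod.stdAddChar (b * (m : ZMod N)))) •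
      Function.Periodic.qParam 1 (τ : ℂ) ^ m) =
      fun m : ℕ => (N : ℂ)⁻¹ * ∑ b : ZMod N, dsb_depl_c N b *
        ((qCoeff f m * ZMod.stdAddChar (b * (m : ZMod N))) •
          Function.Periodic.qParam 1 (τ : ℂ) ^ m) := by
    funext m
    rw [smul_eq_mul, Finset.mul_sum, Finset.mul_sum, Finset.sum_mul]
    refine Finset.sum_congr rfl fun b _ => ?_
    rw [smul_eq_mul]
    ring
  rw [hfun]
  exact h2

theorem dsb_depl_form_qCoeff (N : ℕ) [NeZero N] (k : ℤ) (f : CuspForm (Gamma1 N) k) (m : ℕ) :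
    qCoeff (dsb_depl_form N k f) m = if m.Coprime N then qCoeff f m else 0 := by
  have h := (ModularFormClass.qExpansion_coeff_unique one_pos (dsb_depl_one_mem (N * N))
    (dsb_depl_form_hasSum N k f) m).symm
  rw [qCoeff, h]
  have h3 : ∑ b : ZMod N, dsb_depl_c N b * (qCoeff f m * ZMod.stdAddChar (b * (m : ZMod N))) =
      qCoeff f m * ∑ b : ZMod N, dsb_depl_c N b * ZMod.stdAddChar (b * (m : ZMod N)) := by
    rw [Finset.mul_sum]
    refine Finset.sum_congr rfl fun b _ => ?_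
    ring
  rw [h3, dsb_depl_c_sum]
  have hN : (N : ℂ) ≠ 0 := Nat.cast_ne_zero.mpr (NeZero.ne N)
  by_cases hm : m.Coprime N
  · rw [if_pos hm, if_pos ((ZMod.isUnit_iff_coprime m N).mpr hm)]
    field_simp
  · rw [if_neg hm, if_neg (fun h => hm ((ZMod.isUnit_iff_coprime m N).mp h))]
    simp

/-- **[DEPL]** the depletion `f♭ = ∑_{(n,N)=1} a_n(f) qⁿ` of a cusp form on `Γ₁(N)` is a cusp form on
`Γ₁(N²)` (every weight). -/
theorem dsb_depl (N : ℕ) [NeZero N] (k : ℤ) (f : CuspForm (Gamma1 N) k) :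
    ∃ f' : CuspForm (Gamma1 (N * N)) k,
      ∀ n : ℕ, qCoeff f' n = if n.Coprime N then qCoeff f n else 0 :=
  ⟨dsb_depl_form N k f, dsb_depl_form_qCoeff N k f⟩

theorem dsb_depl_changeLevel_apply (N : ℕ) [NeZero N] (ε : DirichletCharacter ℂ N) {p : ℕ}
    (hp : p.Coprime N) :
    DirichletCharacter.changeLevel (Dvd.intro N rfl : N ∣ N * N) ε ((p : ℕ) : ZMod (N * N)) =
      ε ((p : ℕ) : ZMod N) := by
  have hu : IsUnit ((p : ℕ) : ZMod (N * N)) :=
    (ZMod.isUnit_iff_coprime p (N * N)).mpr (Nat.Coprime.mul_right hp hp)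
  obtain ⟨u, hu'⟩ := hu
  rw [← hu', DirichletCharacter.changeLevel_eq_cast_of_dvd, hu',
    ZMod.cast_natCast (Dvd.intro N rfl : N ∣ N * N)]

/-- **[DEPL]**, weight one with the Hecke relations: the depletion `f♭` satisfies `ds_W1` at level
`N²` with the same `a_p`, and all its coefficients vanish outside the indices prime to `N`. -/
theorem dsb_depl_W1 (N : ℕ) [NeZero N] (ε : DirichletCharacter ℂ N) (f : CuspForm (Gamma1 N) 1)
    (hf : ds_W1 N ε f) :
    ∃ f' : CuspForm (Gamma1 (N * N)) 1,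
      ds_W1 (N * N) (DirichletCharacter.changeLevel (Dvd.intro N rfl : N ∣ N * N) ε) f' ∧
      (∀ n : ℕ, qCoeff f' n = if n.Coprime N then qCoeff f n else 0) ∧
      ∀ p : ℕ, p.Prime → ¬ p ∣ N → qCoeff f' p = qCoeff f p := by
  have hq := dsb_depl_form_qCoeff N 1 f
  refine ⟨dsb_depl_form N 1 f, ⟨?_, ?_⟩, hq, ?_⟩
  · rw [hq, if_pos (Nat.coprime_one_left N)]
    exact hf.one
  · intro p hp hpNN n
    have hpN : ¬ p ∣ N := fun h => hpNN (Dvd.dvd.mul_right h N)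
    have hpc : p.Coprime N := (Nat.Prime.coprime_iff_not_dvd hp).mpr hpN
    rw [dsb_depl_changeLevel_apply N ε hpc]
    simp only [hq]
    rw [if_pos hpc]
    by_cases hn : n.Coprime N
    · rw [if_pos hn, if_pos (Nat.Coprime.mul_left hpc hn)]
      by_cases hpn : p ∣ n
      · rw [if_pos hpn, if_pos (Nat.Coprime.coprime_div_left hn hpn)]
        have := hf.hecke p hp hpN n
        rw [if_pos hpn] at this
        exact this
      · rw [if_neg hpn]
        have := hf.hecke p hp hpN n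
        rw [if_neg hpn] at this
        exact this
    · rw [if_neg hn, if_neg (fun h => hn (Nat.Coprime.coprime_mul_left h)), mul_zero]
      by_cases hpn : p ∣ n
      · have hnp : ¬ (n / p).Coprime N := by
          intro h
          apply hn
          have := Nat.Coprime.mul_left hpc h
          rwa [Nat.mul_div_cancel' hpn] at this
        rw [if_pos hpn, if_neg hnp]
        simp
      · rw [if_neg hpn]
        simp
  · intro p hp hpN
    rw [hq, if_pos ((Nat.Prime.coprime_iff_not_dvd hp).mpr hpN)]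

end Fermat.Agent.DS
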