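import Mathlib

/-!
# DS-B leaf [B6]: bounded denominators + algebraicity + the Hecke recursion ⟹ integrality

`dsb_int_of_pow_bdd`: an algebraic number `x` with `D · x ^ r` integral for all `r` is integral.
`dsb_isIntegral_of_bddDenom`: the statement consumed by `Conj/Seam.lean`.
-/

namespace Fermat.Agent.DS

open NumberField

/-- An algebraic number all of whose powers have denominators bounded by `D` is an algebraic
integer. -/
theorem dsb_int_of_pow_bdd {x : ℂ} (halg : IsAlgebraic ℚ x) (D : ℤ) (hD : D ≠ 0)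
    (h : ∀ r : ℕ, IsIntegral ℤ ((D : ℂ) * x ^ r)) : IsIntegral ℤ x := by
  classical
  set K : IntermediateField ℚ ℂ := IntermediateField.adjoin ℚ {x} with hK
  have hxK : x ∈ K := IntermediateField.mem_adjoin_simple_self ℚ x
  have : FiniteDimensional ℚ K :=
    IntermediateField.adjoin.finiteDimensional halg.isIntegral
  have : NumberField K := ⟨⟩
  -- the image of the ring of integers of `K` in `ℂ`
  let ι : (𝓞 K) →ₗ[ℤ] ℂ :=
    ((IsScalarTower.toAlgHom ℤ K ℂ).toLinearMap).comp
      ((Algebra.linearMap (𝓞 K) K).restrictScalars ℤ)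
  have hι : ∀ a : 𝓞 K, ι a = ((a : K) : ℂ) := fun a => rfl
  have hRfg : (LinearMap.range ι).FG := by
    rw [LinearMap.range_eq_map]
    exact Submodule.FG.map _ Module.Finite.fg_top
  set S : Subalgebra ℤ ℂ := Algebra.adjoin ℤ {x} with hS
  -- multiplication by `D`
  let f : ℂ →ₗ[ℤ] ℂ := LinearMap.mulLeft ℤ (D : ℂ)
  have hfinj : Function.Injective f := by
    intro y z hyz
    have hD' : (D : ℂ) ≠ 0 := by exact_mod_cast hD
    exact mul_left_cancel₀ hD' hyz
  have hle : Submodule.map f S.toSubmodule ≤ LinearMap.range ι := by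
    rintro _ ⟨s, hs, rfl⟩
    have hs' : s ∈ S := hs
    rw [hS, Algebra.adjoin_singleton_eq_range_aeval] at hs'
    obtain ⟨P, rfl⟩ := hs'
    -- `D * P(x)` is in `K` and integral
    have hmemK : (D : ℂ) * Polynomial.aeval x P ∈ K := by
      refine K.mul_mem (intCast_mem K D) ?_
      rw [Polynomial.aeval_def, Polynomial.eval₂_eq_sum_range]
      refine K.sum_mem fun i _ => K.mul_mem ?_ (K.pow_mem hxK i)
      rw [eq_intCast]
      exact intCast_mem K _
    have hint : IsIntegral ℤ ((D : ℂ) * Polynomial.aeval x P) := by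
      rw [Polynomial.aeval_def, Polynomial.eval₂_eq_sum_range, Finset.mul_sum]
      refine IsIntegral.sum _ fun i _ => ?_
      have : (D : ℂ) * ((algebraMap ℤ ℂ) (P.coeff i) * x ^ i) =
          (algebraMap ℤ ℂ) (P.coeff i) * ((D : ℂ) * x ^ i) := by ring
      rw [this]
      exact isIntegral_algebraMap.mul (h i)
    have hk : IsIntegral ℤ (⟨_, hmemK⟩ : K) := by
      rw [← isIntegral_algebraMap_iff (algebraMap K ℂ).injective]
      exact hint
    refine ⟨IsIntegralClosure.mk' (𝓞 K) (⟨_, hmemK⟩ : K) hk, ?_⟩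
    have e1 : ((IsIntegralClosure.mk' (𝓞 K) (⟨_, hmemK⟩ : K) hk : 𝓞 K) : K) = ⟨_, hmemK⟩ :=
      IsIntegralClosure.algebraMap_mk' (𝓞 K) (⟨_, hmemK⟩ : K) hk
    rw [hι, e1]
    rfl
  have hfg : (Submodule.map f S.toSubmodule).FG := Submodule.FG.of_le hRfg hle
  have hSfg : S.toSubmodule.FG := Submodule.fg_of_fg_map_injective f hfinj hfg
  exact IsIntegral.of_mem_of_fg S hSfg x (Algebra.subset_adjoin rfl)

/-- **[B6]** integrality of `a p` from bounded denominators, algebraicity and the Hecke recursion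
at `p`. -/
theorem dsb_isIntegral_of_bddDenom {a : ℕ → ℂ} {p : ℕ} (e : ℂ) (he : IsIntegral ℤ e)
    (hrec : ∀ r : ℕ, a (p ^ (r + 2)) = a p * a (p ^ (r + 1)) - e * a (p ^ r)) (h1 : a 1 = 1)
    (D : ℤ) (hD : D ≠ 0) (hbd : ∀ n, IsIntegral ℤ ((D : ℂ) * a n))
    (halg : IsAlgebraic ℚ (a p)) : IsIntegral ℤ (a p) := by
  set x := a p with hx
  set 𝓘 : Subalgebra ℤ ℂ := integralClosure ℤ ℂ with h𝓘
  set u : ℕ → ℂ := fun r => a (p ^ r) with hu
  set V : Submodule 𝓘 ℂ := Submodule.span 𝓘 (Set.range u) with hV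
  have hu0 : u 0 = 1 := by simp [hu, h1]
  have hu1 : u 1 = x := by simp [hu, hx]
  have hsmul : ∀ (c : 𝓘) (v : ℂ), c • v = (c : ℂ) * v := fun c v => rfl
  have huV : ∀ j, u j ∈ V := fun j => Submodule.subset_span ⟨j, rfl⟩
  -- `V` is stable under multiplication by `x`
  have hA : ∀ v ∈ V, x * v ∈ V := by
    intro v hv
    induction hv using Submodule.span_induction with
    | mem v hv =>
      obtain ⟨j, rfl⟩ := hv
      rcases j with _ | i
      · rw [hu0, mul_one, ← hu1]; exact huV 1
      · have h2 : x * u (i + 1) = u (i + 2) + (⟨e, he⟩ : 𝓘) • u i := by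
          rw [hsmul]
          show a p * a (p ^ (i + 1)) = a (p ^ (i + 2)) + e * a (p ^ i)
          rw [hrec i]; ring
        rw [h2]
        exact V.add_mem (huV _) (V.smul_mem _ (huV _))
    | zero => rw [mul_zero]; exact V.zero_mem
    | add v w _ _ hv hw => rw [mul_add]; exact V.add_mem hv hw
    | smul c v _ hv =>
      have : x * (c • v) = c • (x * v) := by rw [hsmul, hsmul]; ring
      rw [this]
      exact V.smul_mem _ hv
  have hB : ∀ r : ℕ, x ^ r ∈ V := by
    intro r
    induction r with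
    | zero => rw [pow_zero, ← hu0]; exact huV 0
    | succ r ih => rw [pow_succ']; exact hA _ ih
  have hC : ∀ v ∈ V, IsIntegral ℤ ((D : ℂ) * v) := by
    intro v hv
    induction hv using Submodule.span_induction with
    | mem v hv =>
      obtain ⟨j, rfl⟩ := hv
      exact hbd _
    | zero => rw [mul_zero]; exact isIntegral_zero
    | add v w _ _ hv hw => rw [mul_add]; exact hv.add hw
    | smul c v _ hv =>
      have : (D : ℂ) * (c • v) = (c : ℂ) * ((D : ℂ) * v) := by rw [hsmul]; ring
      rw [this]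
      exact c.2.mul hv
  exact dsb_int_of_pow_bdd halg D hD fun r => hC _ (hB r)

end Fermat.Agent.DS
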