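import Mathlib
import Fermat.Agent.DS.Conj.Seam
import Fermat.Agent.DS.Rankin.Seam

/-!
# DS-B: the family-1 seam `ds_SeamB` (places of `Q̄`, `ds_iota`)

`dsB_main : ds_SeamB` with `D = 1` (full integrality), from `Conj/Seam.lean`.
-/

set_option autoImplicit false

open UpperHalfPlane hiding I
open ModularForm CongruenceSubgroup ModularFormClass
open scoped MatrixGroups

namespace Fermat.Agent.DS

/-- an algebraic integer lies in every valuation subring. -/
theorem dsb_mem_valuationSubring_of_isIntegral {K : Type*} [Field K] (A : ValuationSubring K)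
    (y : K) (hy : IsIntegral ℤ y) : y ∈ A := by
  have h : IsIntegral A y := hy.tower_top
  obtain ⟨z, hz⟩ := (IsIntegrallyClosed.isIntegral_iff (R := A) (K := K)).mp h
  rw [← hz]
  exact z.2

/-- every algebraic complex number is in the image of `ds_iota`. -/
theorem dsb_exists_iota_eq (x : ℂ) (hx : IsAlgebraic ℚ x) : ∃ y : ds_Qb, ds_iota y = x := by
  have hint : IsIntegral ℚ x := hx.isIntegral
  have hp0 : minpoly ℚ x ≠ 0 := minpoly.ne_zero hint
  have hsplit : ((minpoly ℚ x).map (algebraMap ℚ ds_Qb)).Splits := IsAlgClosed.splits _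
  have hroots := hsplit.roots_map (ds_iota : ds_Qb →+* ℂ)
  have hmap : ((minpoly ℚ x).map (algebraMap ℚ ds_Qb)).map (ds_iota : ds_Qb →+* ℂ) =
      (minpoly ℚ x).map (algebraMap ℚ ℂ) := by
    rw [Polynomial.map_map]
    congr 1
    exact ds_iota.comp_algebraMap
  rw [hmap] at hroots
  have hxr : x ∈ ((minpoly ℚ x).map (algebraMap ℚ ℂ)).roots := by
    rw [Polynomial.mem_roots (Polynomial.map_ne_zero hp0), Polynomial.IsRoot,
      Polynomial.eval_map_algebraMap]
    exact minpoly.aeval ℚ x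
  rw [hroots, Multiset.mem_map] at hxr
  obtain ⟨y, -, hy⟩ := hxr
  exact ⟨y, hy⟩

/-- integrality descends along `ds_iota`. -/
theorem dsb_isIntegral_of_iota (y : ds_Qb) (hy : IsIntegral ℤ (ds_iota y)) : IsIntegral ℤ y := by
  have h := isIntegral_algHom_iff ((ds_iota : ds_Qb →+* ℂ).toIntAlgHom)
    (x := y) ds_iota_injective
  exact h.mp hy

/-- an algebraic-integer complex number has an algebraic-integer preimage under `ds_iota`. -/
theorem dsb_exists_iota_eq_of_isIntegral (x : ℂ) (hx : IsIntegral ℤ x) :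
    ∃ y : ds_Qb, ds_iota y = x ∧ IsIntegral ℤ y := by
  obtain ⟨y, hy⟩ := dsb_exists_iota_eq x (hx.tower_top (A := ℚ)).isAlgebraic
  exact ⟨y, hy, dsb_isIntegral_of_iota y (hy ▸ hx)⟩

/-- `ds_primeSum` only depends on the values of the weight at the primes of the set. -/
theorem dsb_indicator_congr (X : Set ℕ) (w w' : ℕ → ℝ) (s : ℝ)
    (h : ∀ p : ℕ, p.Prime → p ∈ X → w p = w' p) :
    (fun p : Nat.Primes => X.indicator (fun n : ℕ => w n * (n : ℝ) ^ (-s)) (p : ℕ)) =
      fun p : Nat.Primes => X.indicator (fun n : ℕ => w' n * (n : ℝ) ^ (-s)) (p : ℕ) := by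
  funext p
  by_cases hp : (p : ℕ) ∈ X
  · rw [Set.indicator_of_mem hp, Set.indicator_of_mem hp, h p p.2 hp]
  · rw [Set.indicator_of_notMem hp, Set.indicator_of_notMem hp]

theorem dsb_primeSum_congr (X : Set ℕ) (w w' : ℕ → ℝ) (s : ℝ)
    (h : ∀ p : ℕ, p.Prime → p ∈ X → w p = w' p) : ds_primeSum X w s = ds_primeSum X w' s := by
  unfold ds_primeSum
  rw [dsb_indicator_congr X w w' s h]

/-- **DS-B, main seam, family 1** (`D = 1`). -/
theorem dsB_main : ds_SeamB := by
  classical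
  intro N _ ε f hW
  obtain ⟨hint, hfin⟩ := dsb_ap_integral ε f hW
  -- preimages in `Q̄`
  have hα' : ∀ p : ℕ, ∃ y : ds_Qb, p.Prime → ¬ p ∣ N →
      ds_iota y = qCoeff f p ∧ IsIntegral ℤ y := by
    intro p
    by_cases h : p.Prime ∧ ¬ p ∣ N
    · obtain ⟨y, hy, hyi⟩ := dsb_exists_iota_eq_of_isIntegral _ (hint p h.1 h.2)
      exact ⟨y, fun _ _ => ⟨hy, hyi⟩⟩
    · exact ⟨0, fun hp hpN => absurd ⟨hp, hpN⟩ h⟩
  have he' : ∀ p : ℕ, ∃ y : ds_Qb, ds_iota y = ε (p : ZMod N) ∧ IsIntegral ℤ y := fun p =>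
    dsb_exists_iota_eq_of_isIntegral _ (dsb_chi_isIntegral ε _)
  choose α hα using hα'
  choose e he using he'
  set T : Set ds_Qb := {y | ∃ p : ℕ, p.Prime ∧ ¬ p ∣ N ∧ (y = α p ∨ y = e p)} with hT
  set K : IntermediateField ℚ ds_Qb := IntermediateField.adjoin ℚ T with hK
  -- finite-dimensionality of `K`, through `ds_iota`
  set K1 : IntermediateField ℚ ℂ := IntermediateField.adjoin ℚ
    {x : ℂ | ∃ p : ℕ, p.Prime ∧ ¬ p ∣ N ∧ x = qCoeff f p} with hK1
  set K2 : IntermediateField ℚ ℂ := IntermediateField.adjoin ℚ (Set.range ε) with hK2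
  have hfin1 : FiniteDimensional ℚ K1 := hfin
  have hfin2 : FiniteDimensional ℚ K2 := by
    have : Finite (Set.range ε) := (Set.finite_range _).to_subtype
    refine IntermediateField.finiteDimensional_adjoin ?_
    rintro _ ⟨u, rfl⟩
    exact (dsb_chi_isIntegral ε u).tower_top
  have hfin12 : FiniteDimensional ℚ (K1 ⊔ K2 : IntermediateField ℚ ℂ) :=
    IntermediateField.finiteDimensional_sup K1 K2
  have hmapK : K.map ds_iota ≤ K1 ⊔ K2 := by
    rw [hK, IntermediateField.adjoin_map, IntermediateField.adjoin_le_iff]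
    rintro _ ⟨y, ⟨p, hp, hpN, hy | hy⟩, rfl⟩
    · rw [hy, (hα p hp hpN).1]
      exact (le_sup_left : K1 ≤ K1 ⊔ K2)
        (IntermediateField.subset_adjoin ℚ _ ⟨p, hp, hpN, rfl⟩)
    · rw [hy, (he p).1]
      exact (le_sup_right : K2 ≤ K1 ⊔ K2) (IntermediateField.subset_adjoin ℚ _ ⟨_, rfl⟩)
  have hfinK : FiniteDimensional ℚ K := by
    have hmem : ∀ x : K, ds_iota (x : ds_Qb) ∈ (K1 ⊔ K2 : IntermediateField ℚ ℂ) := fun x =>
      hmapK ⟨x, x.2, rfl⟩
    let φ : K →ₗ[ℚ] (K1 ⊔ K2 : IntermediateField ℚ ℂ) :=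
      { toFun := fun x => ⟨ds_iota (x : ds_Qb), hmem x⟩
        map_add' := fun x y => by
          apply Subtype.ext
          simp
        map_smul' := fun c x => by
          apply Subtype.ext
          simp only [IntermediateField.coe_smul, RingHom.id_apply]
          rw [Algebra.smul_def, Algebra.smul_def, map_mul, AlgHom.commutes] }
    refine FiniteDimensional.of_injective φ ?_
    intro x y hxy
    have h1 : ds_iota (x : ds_Qb) = ds_iota (y : ds_Qb) := congrArg Subtype.val hxy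
    exact Subtype.ext (ds_iota_injective h1)
  refine ⟨K, 1, α, e, hfinK, one_pos, ?_, ?_⟩
  · intro p hp hpN
    refine ⟨IntermediateField.subset_adjoin ℚ T ⟨p, hp, hpN, Or.inl rfl⟩,
      IntermediateField.subset_adjoin ℚ T ⟨p, hp, hpN, Or.inr rfl⟩, (hα p hp hpN).1, (he p).1, ?_⟩
    intro ℓ _ _ A _
    exact dsb_mem_valuationSubring_of_isIntegral A _ (hα p hp hpN).2
  · intro τ
    obtain ⟨σ, hσ⟩ := dsb_exists_aut_of_embedding τ
    obtain ⟨f', hW', hf'⟩ := dsb_conj_W1 ε f hW (σ : ℂ →+* ℂ)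
    obtain ⟨C, hC⟩ := dsA_rankin_tsum N (ε.ringHomComp (σ : ℂ →+* ℂ)) f' hW'
    refine ⟨C, fun s hs hs2 => ?_⟩
    have hkey : ∀ p : ℕ, p.Prime → p ∈ {p : ℕ | ¬ p ∣ N} →
        ‖τ (α p)‖ ^ 2 = ‖qCoeff f' p‖ ^ 2 := by
      intro p hp hpN
      have h1 : τ (α p) = qCoeff f' p := by
        rw [hf', ← hσ, (hα p hp hpN).1]
        rfl
      rw [h1]
    obtain ⟨hsum, hle⟩ := hC s hs hs2
    rw [dsb_indicator_congr _ _ _ s hkey, dsb_primeSum_congr _ _ _ s hkey]
    exact ⟨hsum, hle⟩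

/-- **DS-B, integrality** (the companion of `dsB_main`): the `a_p`, `p ∤ N`, are algebraic
integers. -/
theorem dsb_seamB_integral (N : ℕ) [NeZero N] (ε : DirichletCharacter ℂ N)
    (f : CuspForm (Gamma1 N) 1) (hW : ds_W1 N ε f) (p : ℕ) (hp : p.Prime) (hpN : ¬ p ∣ N) :
    IsIntegral ℤ (qCoeff f p) :=
  (dsb_ap_integral ε f hW).1 p hp hpN

end Fermat.Agent.DS
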